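import Fermat.Agent.MWH.LB

/-!
# [LocLB]
-/

set_option autoImplicit false
set_option linter.unusedSectionVars false
set_option linter.style.haveILetI false

noncomputable section

namespace Fermat.Agent.MWH

open AlgebraicCurve Fermat.Agent.Curves Fermat.Agent.PicFlat

variable {K F ι : Type*} [Field K] [IsAlgClosed K] [Field F] [Algebra K F] [IsFunctionField K F]

/-- moment vector -/
def mvec {K : Type*} [Field K] (n : ℕ) (a : K) : Fin (n + 1) → K := fun k => a ^ (k : ℕ)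

theorem mvec_ne {K : Type*} [Field K] (n : ℕ) (a : K) : mvec n a ≠ 0 := by
  intro h
  have := congrFun h 0
  simp [mvec] at this

theorem card_support_le (D : Divisor K F) (hD : ∀ P, 0 ≤ D P) :
    (D.support.card : ℤ) ≤ Divisor.degree D := by
  rw [← sum_toNat D hD]
  have : D.support.card ≤ ∑ Q ∈ D.support, (D Q).toNat := by
    rw [Finset.card_eq_sum_ones]
    refine Finset.sum_le_sum fun Q hQ => ?_
    have h1 := Finsupp.mem_support_iff.1 hQ
    have h2 := hD Q
    omega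
  exact_mod_cast this

theorem dot_mvec (E : Emb K F) (a : K) (P : Place K F) :
    E.dot (mvec E.r a) P = ∑ k : Fin (E.r + 1), a ^ (k : ℕ) * E.x P k := rfl

theorem locLB (E : Emb K F) (A : AVFam K ι) : LocLB E A := by
  classical
  set m := E.m with hm
  set r := E.r with hr
  obtain ⟨T, hT⟩ := Infinite.exists_subset_card_eq K ((2 * m + 1) * r + 1)
  obtain ⟨T', hT'⟩ := Infinite.exists_subset_card_eq K (2 * m * r + 1)
  obtain ⟨CV, hCV, hV⟩ := A.vdm_card r T
  obtain ⟨CV', hCV', hV'⟩ := A.vdm_card r T'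
  obtain ⟨Cd, hCd, hdot⟩ := Emb.dot_le (E := E) A
  -- bounds for moment vectors
  obtain ⟨Cb, hCb, hb⟩ := A.exists_bd ((T ∪ T') ×ˢ (Finset.univ : Finset (Fin (r + 1))))
    (fun x => x.1 ^ (x.2 : ℕ))
  have hbn : ∀ v, ∀ a ∈ T ∪ T', A.nrm v (mvec r a) ≤ Cb v := fun v a ha =>
    AVFam.nrm_le fun k => hb v (a, k) (Finset.mem_product.2 ⟨ha, Finset.mem_univ _⟩)
  set B : ι → ℝ := fun v => Cd v * Cb v * CV v with hBdef
  have hB : MC B := (hCd.mul hCb).mul hCV
  -- the pencils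
  set L : Finset (K × K) := (T ×ˢ T').filter fun x => Pencil E (mvec r x.2) (mvec r x.1) with hL
  obtain ⟨D, hD, hlb⟩ := exists_mc_finset (ι := ι) (X := (Fin (r + 1) → K) × Place K F) L
    (fun x v y C => y.1 ≠ 0 →
      (E.dot (mvec r x.1) y.2 ≠ 0 ∧ A.nv v (tau E (mvec r x.2) (mvec r x.1) y.2) ≤ B v) →
      (∀ Q ∈ (E.dv y.1).support, E.dot (mvec r x.1) Q ≠ 0 ∧
        A.nv v (tau E (mvec r x.2) (mvec r x.1) Q) ≤ B v) →
      sup A v y.1 * A.nv v (E.dot (mvec r x.1) y.2) *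
        ∏ Q ∈ (E.dv y.1).support, A.nv v (tau E (mvec r x.2) (mvec r x.1) y.2 -
          tau E (mvec r x.2) (mvec r x.1) Q) ^ (E.dv y.1 Q).toNat ≤
      C * A.nv v (E.dot y.1 y.2))
    (fun x v y C C' hCC h h1 h2 h3 => (h h1 h2 h3).trans
      (mul_le_mul_of_nonneg_right hCC ((A.nv v).nonneg _)))
    (fun x hx => by
      obtain ⟨D, hD, h⟩ := Pencil.lb A (Finset.mem_filter.1 hx).2 hB
      exact ⟨D, hD, fun v y h1 h2 h3 => h v y.1 h1 y.2 h2 h3⟩)
  refine ⟨fun v => CV v * (CV v * CV' v * (Cd v * Cb v) ^ 2) ^ m * D v,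
    (hCV.mul (((hCV.mul hCV').mul ((hCd.mul hCb).pow 2)).pow m)).mul hD, fun v c hc P => ?_⟩
  -- notation
  set S := (E.dv c).support with hS
  have hScard : S.card ≤ m := by
    have := card_support_le (E.dv c) (fun Q => Emb.dv_nonneg hc Q)
    rw [Emb.dv_degree] at this
    exact_mod_cast this
  -- antisymmetric coordinates
  let z : Place K F → Fin (r + 1) → Fin (r + 1) → K := fun Q l k =>
    E.x P l * E.x Q k - E.x P k * E.x Q l
  have hz : ∀ Q, ∃ l₀, ∀ l k, A.nv v (z Q l k) ≤ A.nrm v (z Q l₀) := fun Q => by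
    obtain ⟨⟨l₀, k₀⟩, h0⟩ := exists_eq_ciSup_of_finite
      (f := fun ij : Fin (r + 1) × Fin (r + 1) => A.nv v (z Q ij.1 ij.2))
    refine ⟨l₀, fun l k => ?_⟩
    refine le_trans ?_ (AVFam.le_nrm v (z Q l₀) k₀)
    rw [h0]
    exact le_ciSup (f := fun ij : Fin (r + 1) × Fin (r + 1) => A.nv v (z Q ij.1 ij.2))
      (Set.finite_range _).bddAbove (l, k)
  choose l₀ hl₀ using hz
  -- bad a
  choose bad hbadc hbad using hV v
  obtain ⟨a, haT, ha⟩ : ∃ a ∈ T, a ∉ bad (E.x P) ∪ (S.biUnion fun Q => bad (E.x Q)) ∪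
      (S.biUnion fun Q => bad (z Q (l₀ Q))) := by
    by_contra hcon
    push Not at hcon
    have h1 := Finset.card_le_card (s := T) (fun a ha => hcon a ha)
    have h2 : (bad (E.x P) ∪ (S.biUnion fun Q => bad (E.x Q)) ∪
      (S.biUnion fun Q => bad (z Q (l₀ Q)))).card ≤ r + m * r + m * r := by
      refine (Finset.card_union_le _ _).trans (add_le_add ((Finset.card_union_le _ _).trans
        (add_le_add (hbadc _) ?_)) ?_)
      · exact (Finset.card_biUnion_le_card_mul _ _ r fun Q _ => hbadc _).trans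
          (Nat.mul_le_mul_right _ hScard)
      · exact (Finset.card_biUnion_le_card_mul _ _ r fun Q _ => hbadc _).trans
          (Nat.mul_le_mul_right _ hScard)
    rw [hT] at h1
    nlinarith
  simp only [Finset.mem_union, Finset.mem_biUnion, not_or, not_exists, not_and] at ha
  obtain ⟨⟨haP, haQ⟩, haz⟩ := ha
  have haP' := hbad _ a haT haP
  have haQ' : ∀ Q ∈ S, A.nrm v (E.x Q) ≤ CV v * A.nv v (E.dot (mvec r a) Q) := fun Q hQ =>
    hbad _ a haT (haQ Q hQ)
  have haz' : ∀ Q ∈ S, A.nrm v (z Q (l₀ Q)) ≤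
    CV v * A.nv v (∑ k : Fin (r + 1), a ^ (k : ℕ) * z Q (l₀ Q) k) := fun Q hQ =>
    hbad _ a haT (haz Q hQ)
  have haP'' : E.nx A v P ≤ CV v * A.nv v (E.dot (mvec r a) P) := haP'
  -- bad b
  let u : Place K F → Fin (r + 1) → K := fun Q l => ∑ k : Fin (r + 1), a ^ (k : ℕ) * z Q l k
  choose bad' hbadc' hbad' using hV' v
  set R := (E.dv (mvec r a)).support with hR
  have hRcard : R.card ≤ m := by
    have := card_support_le (E.dv (mvec r a)) (fun Q => Emb.dv_nonneg (mvec_ne r a) Q)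
    rw [Emb.dv_degree] at this
    exact_mod_cast this
  obtain ⟨b, hbT, hb'⟩ : ∃ b ∈ T', b ∉ (S.biUnion fun Q => bad' (u Q)) ∪
      (R.biUnion fun Q => bad' (E.x Q)) := by
    by_contra hcon
    push Not at hcon
    have h1 := Finset.card_le_card (s := T') (fun a ha => hcon a ha)
    have h2 : ((S.biUnion fun Q => bad' (u Q)) ∪
      (R.biUnion fun Q => bad' (E.x Q))).card ≤ m * r + m * r := by
      refine (Finset.card_union_le _ _).trans (add_le_add ?_ ?_)
      · exact (Finset.card_biUnion_le_card_mul _ _ r fun Q _ => hbadc' _).trans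
          (Nat.mul_le_mul_right _ hScard)
      · exact (Finset.card_biUnion_le_card_mul _ _ r fun Q _ => hbadc' _).trans
          (Nat.mul_le_mul_right _ hRcard)
    rw [hT'] at h1
    nlinarith
  simp only [Finset.mem_union, Finset.mem_biUnion, not_or, not_exists, not_and] at hb'
  obtain ⟨hbu, hbx⟩ := hb'
  have hbu' : ∀ Q ∈ S, A.nrm v (u Q) ≤ CV' v * A.nv v (∑ l : Fin (r + 1), b ^ (l : ℕ) * u Q l) :=
    fun Q hQ => hbad' _ b hbT (hbu Q hQ)
  have hbx' : ∀ Q ∈ R, A.nrm v (E.x Q) ≤ CV' v * A.nv v (E.dot (mvec r b) Q) :=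
    fun Q hQ => hbad' _ b hbT (hbx Q hQ)
  -- the pencil
  have hpen : Pencil E (mvec r b) (mvec r a) := by
    refine ⟨mvec_ne r b, mvec_ne r a, fun Q hQ => ?_⟩
    have hQR : Q ∈ R := by
      rw [hR, Finsupp.mem_support_iff]
      have := (Emb.dot_eq_zero_iff (mvec_ne r a) Q).1 hQ
      omega
    have h1 := hbx' Q hQR
    intro h0
    rw [h0, map_zero, mul_zero] at h1
    exact absurd (Emb.nx_pos (E := E) A v Q) (not_lt.2 h1)
  have habL : (a, b) ∈ L := Finset.mem_filter.2 ⟨Finset.mem_product.2 ⟨haT, hbT⟩, hpen⟩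
  -- general facts
  have hdota : ∀ Q, A.nv v (E.dot (mvec r a) Q) ≤ Cd v * Cb v * E.nx A v Q := fun Q => by
    refine (hdot v (mvec r a) Q).trans ?_
    rw [mul_assoc]
    refine mul_le_mul_of_nonneg_left ?_ (hCd.nonneg v)
    exact mul_le_mul_of_nonneg_right (hbn v a (Finset.mem_union_left _ haT))
      (Emb.nx_pos A v Q).le
  have hdotb : ∀ Q, A.nv v (E.dot (mvec r b) Q) ≤ Cd v * Cb v * E.nx A v Q := fun Q => by
    refine (hdot v (mvec r b) Q).trans ?_
    rw [mul_assoc]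
    refine mul_le_mul_of_nonneg_left ?_ (hCd.nonneg v)
    exact mul_le_mul_of_nonneg_right (hbn v b (Finset.mem_union_right _ hbT))
      (Emb.nx_pos A v Q).le
  have good : ∀ Q, E.nx A v Q ≤ CV v * A.nv v (E.dot (mvec r a) Q) →
      E.dot (mvec r a) Q ≠ 0 ∧ A.nv v (tau E (mvec r b) (mvec r a) Q) ≤ B v := fun Q hQ => by
    have h0 : E.dot (mvec r a) Q ≠ 0 := by
      intro h0
      rw [h0, map_zero, mul_zero] at hQ
      exact absurd (Emb.nx_pos (E := E) A v Q) (not_lt.2 hQ)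
    refine ⟨h0, ?_⟩
    rw [tau, map_div₀, div_le_iff₀ ((A.nv v).pos h0)]
    refine (hdotb Q).trans ?_
    rw [hBdef]
    simp only
    rw [mul_assoc (Cd v * Cb v)]
    exact mul_le_mul_of_nonneg_left hQ (mul_nonneg (hCd.nonneg v) (hCb.nonneg v))
  have hgP := good P haP''
  have hgQ : ∀ Q ∈ S, E.dot (mvec r a) Q ≠ 0 ∧
    A.nv v (tau E (mvec r b) (mvec r a) Q) ≤ B v := fun Q hQ => good Q (haQ' Q hQ)
  have key := hlb v (a, b) habL (c, P) hc hgP hgQ
  simp only at key
  -- comparison of distances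
  have hdl : ∀ Q ∈ S, E.dl A v P Q ≤ CV v * CV' v * (Cd v * Cb v) ^ 2 *
      A.nv v (tau E (mvec r b) (mvec r a) P - tau E (mvec r b) (mvec r a) Q) := by
    intro Q hQ
    have hnP := Emb.nx_pos (E := E) A v P
    have hnQ := Emb.nx_pos (E := E) A v Q
    have e1 : (∑ l : Fin (r + 1), b ^ (l : ℕ) * u Q l) =
        (tau E (mvec r b) (mvec r a) P - tau E (mvec r b) (mvec r a) Q) *
          (E.dot (mvec r a) P * E.dot (mvec r a) Q) := by
      have e2 : (tau E (mvec r b) (mvec r a) P - tau E (mvec r b) (mvec r a) Q) *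
          (E.dot (mvec r a) P * E.dot (mvec r a) Q) =
          E.dot (mvec r b) P * E.dot (mvec r a) Q - E.dot (mvec r a) P * E.dot (mvec r b) Q := by
        rw [tau, tau]
        have := hgP.1
        have := (hgQ Q hQ).1
        field_simp
      rw [e2, dot_mvec, dot_mvec, dot_mvec, dot_mvec, Finset.sum_mul_sum, Finset.sum_mul_sum]
      rw [Finset.sum_comm (f := fun (i j : Fin (E.r + 1)) =>
        a ^ (i : ℕ) * E.x P i * (b ^ (j : ℕ) * E.x Q j)),
        ← Finset.sum_sub_distrib]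
      refine Finset.sum_congr rfl fun l _ => ?_
      rw [← Finset.sum_sub_distrib, Finset.mul_sum]
      refine Finset.sum_congr rfl fun k _ => ?_
      simp only [z]
      ring
    have e3 : (⨆ ij : Fin (E.r + 1) × Fin (E.r + 1),
        A.nv v (E.x P ij.1 * E.x Q ij.2 - E.x P ij.2 * E.x Q ij.1)) ≤
        CV v * CV' v * A.nv v (∑ l : Fin (r + 1), b ^ (l : ℕ) * u Q l) := by
      refine ciSup_le fun ij => ?_
      refine (hl₀ Q ij.1 ij.2).trans ((haz' Q hQ).trans ?_)
      rw [mul_assoc]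
      refine mul_le_mul_of_nonneg_left ?_ (hCV.nonneg v)
      exact (AVFam.le_nrm v (u Q) (l₀ Q)).trans (hbu' Q hQ)
    rw [Emb.dl, div_le_iff₀ (mul_pos hnP hnQ)]
    refine e3.trans ?_
    rw [e1, map_mul, map_mul]
    have h1 := hdota P
    have h2 := hdota Q
    have h3 : A.nv v (E.dot (mvec r a) P) * A.nv v (E.dot (mvec r a) Q) ≤
        (Cd v * Cb v * E.nx A v P) * (Cd v * Cb v * E.nx A v Q) :=
      mul_le_mul h1 h2 ((A.nv v).nonneg _) (mul_nonneg (mul_nonneg (hCd.nonneg v)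
        (hCb.nonneg v)) hnP.le)
    have h4 : 0 ≤ CV v * CV' v * A.nv v (tau E (mvec r b) (mvec r a) P -
        tau E (mvec r b) (mvec r a) Q) := mul_nonneg (mul_nonneg (hCV.nonneg v) (hCV'.nonneg v))
      ((A.nv v).nonneg _)
    calc _ = CV v * CV' v * A.nv v (tau E (mvec r b) (mvec r a) P -
        tau E (mvec r b) (mvec r a) Q) * (A.nv v (E.dot (mvec r a) P) *
          A.nv v (E.dot (mvec r a) Q)) := by ring
      _ ≤ CV v * CV' v * A.nv v (tau E (mvec r b) (mvec r a) P -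
        tau E (mvec r b) (mvec r a) Q) * ((Cd v * Cb v * E.nx A v P) *
          (Cd v * Cb v * E.nx A v Q)) := mul_le_mul_of_nonneg_left h3 h4
      _ = _ := by ring
  -- conclusion
  set W := CV v * CV' v * (Cd v * Cb v) ^ 2 with hW
  have hW1 : 1 ≤ W := ((hCV.mul hCV').mul ((hCd.mul hCb).pow 2)).one_le v
  have hdD : E.dD A v P (E.dv c) ≤ W ^ m * ∏ Q ∈ S, A.nv v (tau E (mvec r b) (mvec r a) P -
      tau E (mvec r b) (mvec r a) Q) ^ (E.dv c Q).toNat := by
    have h1 : E.dD A v P (E.dv c) ≤ ∏ Q ∈ S, (W * A.nv v (tau E (mvec r b) (mvec r a) P -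
        tau E (mvec r b) (mvec r a) Q)) ^ (E.dv c Q).toNat := by
      refine Finset.prod_le_prod (fun Q _ => pow_nonneg (Emb.dl_nonneg A v P Q) _) fun Q hQ => ?_
      exact pow_le_pow_left₀ (Emb.dl_nonneg A v P Q) (hdl Q hQ) _
    refine h1.trans (le_of_eq ?_)
    simp only [mul_pow]
    rw [Finset.prod_mul_distrib, Finset.prod_pow_eq_pow_sum]
    congr 2
    have h2 := sum_toNat (E.dv c) (fun Q => Emb.dv_nonneg hc Q)
    rw [Emb.dv_degree] at h2
    exact_mod_cast h2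
  have hprodnn : 0 ≤ ∏ Q ∈ S, A.nv v (tau E (mvec r b) (mvec r a) P -
      tau E (mvec r b) (mvec r a) Q) ^ (E.dv c Q).toNat :=
    Finset.prod_nonneg fun Q _ => pow_nonneg ((A.nv v).nonneg _) _
  have hcn : 0 ≤ sup A v c := AVFam.nrm_nonneg v c
  have hWm : 0 ≤ W ^ m := pow_nonneg (zero_le_one.trans hW1) _
  calc sup A v c * E.nx A v P * E.dD A v P (E.dv c)
      ≤ sup A v c * (CV v * A.nv v (E.dot (mvec r a) P)) * (W ^ m *
        ∏ Q ∈ S, A.nv v (tau E (mvec r b) (mvec r a) P -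
          tau E (mvec r b) (mvec r a) Q) ^ (E.dv c Q).toNat) :=
        mul_le_mul (mul_le_mul_of_nonneg_left haP'' hcn) hdD (Emb.dD_nonneg A v P _)
          (mul_nonneg hcn (mul_nonneg (hCV.nonneg v) ((A.nv v).nonneg _)))
    _ = CV v * W ^ m * (sup A v c * A.nv v (E.dot (mvec r a) P) *
        ∏ Q ∈ S, A.nv v (tau E (mvec r b) (mvec r a) P -
          tau E (mvec r b) (mvec r a) Q) ^ (E.dv c Q).toNat) := by ring
    _ ≤ CV v * W ^ m * (D v * A.nv v (E.dot c P)) :=
        mul_le_mul_of_nonneg_left key (mul_nonneg (hCV.nonneg v) hWm)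
    _ = _ := by ring

end Fermat.Agent.MWH
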