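import Fermat.Agent.MWH.Const
import Fermat.Agent.Curves.Approx

/-!
# Sections, hyperplane divisors and coordinates
-/

set_option autoImplicit false
set_option linter.unusedSectionVars false

noncomputable section

namespace Fermat.Agent.MWH

open AlgebraicCurve Fermat.Agent.Curves Fermat.Agent.PicFlat

variable {K F ι : Type*} [Field K] [IsAlgClosed K] [Field F] [Algebra K F] [IsFunctionField K F]

namespace Emb

variable (E : Emb K F)

theorem f_mem (i : Fin (E.r + 1)) :
    E.f i ∈ riemannRochSpace (Finsupp.single E.inf (E.m : ℤ)) := by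
  rw [← E.span]
  exact Submodule.subset_span ⟨i, rfl⟩

theorem G_mem (c : Fin (E.r + 1) → K) :
    E.G c ∈ riemannRochSpace (Finsupp.single E.inf (E.m : ℤ)) :=
  Submodule.sum_mem _ fun i _ => Submodule.smul_mem _ _ (E.f_mem i)

theorem G_add (c d : Fin (E.r + 1) → K) : E.G (c + d) = E.G c + E.G d := by
  simp [G, add_smul, Finset.sum_add_distrib]

theorem G_smul (t : K) (c : Fin (E.r + 1) → K) : E.G (t • c) = t • E.G c := by
  simp [G, Finset.smul_sum, smul_smul]

theorem G_sub (c d : Fin (E.r + 1) → K) : E.G (c - d) = E.G c - E.G d := by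
  simp [G, sub_smul, Finset.sum_sub_distrib]

theorem G_ne_zero {c : Fin (E.r + 1) → K} (hc : c ≠ 0) : E.G c ≠ 0 := by
  intro h
  apply hc
  funext i
  exact (Fintype.linearIndependent_iff.1 E.li) c h i

theorem exists_G {G : F} (h : G ∈ riemannRochSpace (Finsupp.single E.inf (E.m : ℤ))) :
    ∃ c, E.G c = G := by
  rw [← E.span] at h
  obtain ⟨c, hc⟩ := (Submodule.mem_span_range_iff_exists_fun K).1 h
  exact ⟨c, hc⟩

theorem dot_add (c d : Fin (E.r + 1) → K) (P : Place K F) :
    E.dot (c + d) P = E.dot c P + E.dot d P := by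
  simp [dot, add_mul, Finset.sum_add_distrib]

theorem dot_sub (c d : Fin (E.r + 1) → K) (P : Place K F) :
    E.dot (c - d) P = E.dot c P - E.dot d P := by
  simp [dot, sub_mul, Finset.sum_sub_distrib]

theorem dot_smul (t : K) (c : Fin (E.r + 1) → K) (P : Place K F) :
    E.dot (t • c) P = t * E.dot c P := by
  simp [dot, Finset.mul_sum, mul_assoc]

theorem dot_zero (P : Place K F) : E.dot 0 P = 0 := by simp [dot]

variable {E}

theorem regular {G : F} (h : G ∈ riemannRochSpace (Finsupp.single E.inf (E.m : ℤ)))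
    {P : Place K F} (hP : P ≠ E.inf) : G ∈ P.toValuationSubring := by
  rcases eq_or_ne G 0 with rfl | h0
  · exact zero_mem _
  rw [mem_iff_ord P h0]
  have := (mem_iff_of_ne h0).1 h P
  rw [Finsupp.single_eq_of_ne hP] at this
  omega

theorem value_smul (w : Place K F) (t : K) {x : F} (hx : x ∈ w.toValuationSubring) :
    value w (t • x) = t * value w x := by
  rw [Algebra.smul_def, value_mul w (w.algebraMap_mem' t) hx, value_algebraMap]

theorem value_sum {α : Type*} (s : Finset α) (w : Place K F) {x : α → F}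
    (hx : ∀ i ∈ s, x i ∈ w.toValuationSubring) :
    value w (∑ i ∈ s, x i) = ∑ i ∈ s, value w (x i) := by
  classical
  induction s using Finset.induction_on with
  | empty =>
    simp only [Finset.sum_empty]
    rw [value_eq_zero_iff w (zero_mem _)]
    simp
  | insert a s ha ih =>
    rw [Finset.sum_insert ha, Finset.sum_insert ha, value_add w
      (hx a (Finset.mem_insert_self a s)) (sum_mem fun b hb => hx b (Finset.mem_insert_of_mem hb)),
      ih fun b hb => hx b (Finset.mem_insert_of_mem hb)]

theorem dot_eq_value (c : Fin (E.r + 1) → K) {P : Place K F} (hP : P ≠ E.inf) :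
    E.dot c P = value P (E.G c) := by
  rw [G, value_sum _ _ fun i _ => ?_]
  · refine Finset.sum_congr rfl fun i _ => ?_
    rw [value_smul P _ (regular (E.f_mem i) hP), x, if_neg hP]
  · exact (regular (Submodule.smul_mem _ _ (E.f_mem i)) hP)

theorem dot_inf (c : Fin (E.r + 1) → K) : E.dot c E.inf = c (Fin.last E.r) := by
  classical
  rw [dot, Finset.sum_eq_single (Fin.last E.r)]
  · rw [x, if_pos rfl, if_pos rfl, mul_one]
  · intro i _ hi
    rw [x, if_pos rfl, if_neg hi, mul_zero]
  · intro h
    exact absurd (Finset.mem_univ _) h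

theorem dv_apply (c : Fin (E.r + 1) → K) (P : Place K F) :
    E.dv c P = P.ord (E.G c) + (Finsupp.single E.inf (E.m : ℤ) : Divisor K F) P := by
  rw [dv, Finsupp.add_apply, divisorOf_apply]

theorem dv_nonneg {c : Fin (E.r + 1) → K} (hc : c ≠ 0) (P : Place K F) : 0 ≤ E.dv c P := by
  rw [dv_apply]
  have := (mem_iff_of_ne (E.G_ne_zero hc)).1 (E.G_mem c) P
  omega

theorem dv_degree (c : Fin (E.r + 1) → K) : Divisor.degree (E.dv c) = E.m := by
  rw [dv, map_add, degree_divisorOf, zero_add, degree_single_one]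

theorem G_inf_lt {c : Fin (E.r + 1) → K} (hc : c (Fin.last E.r) = 0) :
    E.G c ∈ riemannRochSpace (Finsupp.single E.inf ((E.m : ℤ) - 1)) := by
  refine Submodule.sum_mem _ fun i _ => ?_
  by_cases hi : i = Fin.last E.r
  · rw [hi, hc, zero_smul]
    exact Submodule.zero_mem _
  · exact Submodule.smul_mem _ _ (E.ord_lt i hi)

theorem dot_eq_zero_iff {c : Fin (E.r + 1) → K} (hc : c ≠ 0) (P : Place K F) :
    E.dot c P = 0 ↔ 0 < E.dv c P := by
  have hG := E.G_ne_zero hc
  by_cases hP : P = E.inf
  · subst hP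
    rw [dot_inf, dv_apply, Finsupp.single_eq_same]
    constructor
    · intro h
      have := (mem_iff_of_ne hG).1 (G_inf_lt h) E.inf
      rw [Finsupp.single_eq_same] at this
      omega
    · intro h
      by_contra hl
      -- the order at infinity is exactly `-m`
      set c' : Fin (E.r + 1) → K := fun i => if i = Fin.last E.r then 0 else c i with hc'
      have h1 : E.G c = c (Fin.last E.r) • E.f (Fin.last E.r) + E.G c' := by
        rw [G, G, ← Finset.add_sum_erase _ _ (Finset.mem_univ (Fin.last E.r)),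
          ← Finset.add_sum_erase Finset.univ (fun i => c' i • E.f i)
            (Finset.mem_univ (Fin.last E.r))]
        simp only [hc', if_true, zero_smul, zero_add]
        congr 1
        refine Finset.sum_congr rfl fun i hi => ?_
        rw [if_neg (Finset.ne_of_mem_erase hi)]
      have h2 : E.G c' ∈ riemannRochSpace (Finsupp.single E.inf ((E.m : ℤ) - 1)) :=
        G_inf_lt (by simp [hc'])
      have hf0 : E.f (Fin.last E.r) ≠ 0 := E.li.ne_zero _
      have h3 : E.inf.ord (c (Fin.last E.r) • E.f (Fin.last E.r)) = -(E.m : ℤ) := by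
        rw [Algebra.smul_def, E.inf.ord_mul (by simpa using hl) hf0, ord_algebraMap, zero_add,
          E.ord_last]
      have h4 : c (Fin.last E.r) • E.f (Fin.last E.r) ≠ 0 := smul_ne_zero hl hf0
      rcases eq_or_ne (E.G c') 0 with h5 | h5
      · rw [h5, add_zero] at h1
        rw [h1, h3] at h
        omega
      · have h6 := (mem_iff_of_ne h5).1 h2 E.inf
        rw [Finsupp.single_eq_same] at h6
        have h7 := (ord_add_eq_left E.inf h4 (g := E.G c') (Or.inr (by rw [h3]; omega))).2
        rw [← h1, h3] at h7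
        omega
  · rw [dot_eq_value c hP, value_eq_zero_iff P (regular (E.G_mem c) hP), val_lt_one_iff,
      or_iff_right hG, dv_apply, Finsupp.single_eq_of_ne hP, add_zero]

theorem dv_eq_zero {c : Fin (E.r + 1) → K} {P : Place K F} (h : E.dot c P ≠ 0) :
    E.dv c P = 0 := by
  have hc : c ≠ 0 := fun h0 => h (by rw [h0, dot_zero])
  have h1 := dv_nonneg hc P
  have h2 := (dot_eq_zero_iff hc P).not.1 h
  omega

theorem dot_ne_zero_iff {c : Fin (E.r + 1) → K} (hc : c ≠ 0) (P : Place K F) :
    E.dot c P ≠ 0 ↔ E.dv c P = 0 := by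
  constructor
  · exact dv_eq_zero
  · intro h h0
    rw [dot_eq_zero_iff hc, h] at h0
    exact lt_irrefl _ h0

theorem ord_ratio {c c' : Fin (E.r + 1) → K} (hc : c ≠ 0) (hc' : c' ≠ 0) (P : Place K F) :
    P.ord (E.G c / E.G c') = E.dv c P - E.dv c' P := by
  rw [ord_div P (E.G_ne_zero hc) (E.G_ne_zero hc'), dv_apply, dv_apply]
  ring

/-- ratios of sections are regular with the expected value -/
theorem ratio_mem (c : Fin (E.r + 1) → K) {c' : Fin (E.r + 1) → K} {P : Place K F}
    (h : E.dot c' P ≠ 0) : E.G c / E.G c' ∈ P.toValuationSubring := by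
  have hc' : c' ≠ 0 := fun h0 => h (by rw [h0, dot_zero])
  rcases eq_or_ne c 0 with rfl | hc
  · simp [G, zero_mem]
  rw [mem_iff_ord P (div_ne_zero (E.G_ne_zero hc) (E.G_ne_zero hc')), ord_ratio hc hc',
    dv_eq_zero h]
  have := dv_nonneg hc P
  omega

theorem value_ratio (c : Fin (E.r + 1) → K) {c' : Fin (E.r + 1) → K} {P : Place K F}
    (h : E.dot c' P ≠ 0) : value P (E.G c / E.G c') = E.dot c P / E.dot c' P := by
  have hc' : c' ≠ 0 := fun h0 => h (by rw [h0, dot_zero])
  rw [value_eq_iff P (ratio_mem c h)]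
  set l := E.dot c P / E.dot c' P with hl
  have h1 : E.G c / E.G c' - algebraMap K F l = E.G (c - l • c') / E.G c' := by
    rw [G_sub, G_smul, Algebra.smul_def]
    field_simp [E.G_ne_zero hc']
  have h2 : E.dot (c - l • c') P = 0 := by
    rw [dot_sub, dot_smul, hl, div_mul_cancel₀ _ h, sub_self]
  rw [h1, val_lt_one_iff]
  rcases eq_or_ne (c - l • c') 0 with h3 | h3
  · left
    rw [h3]
    simp [G]
  · right
    rw [ord_ratio h3 hc', dv_eq_zero h, sub_zero]
    exact (dot_eq_zero_iff h3 P).1 h2

theorem x_eq_dot (P : Place K F) (i : Fin (E.r + 1)) : E.x P i = E.dot (Pi.single i 1) P := by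
  classical
  rw [dot, Finset.sum_eq_single i]
  · simp
  · intro j _ hj
    rw [Pi.single_eq_of_ne hj, zero_mul]
  · intro h
    exact absurd (Finset.mem_univ _) h

theorem x_ne_zero (P : Place K F) : E.x P ≠ 0 := by
  classical
  by_cases hP : P = E.inf
  · intro h
    have := congrFun h (Fin.last E.r)
    rw [x, if_pos hP, if_pos rfl] at this
    simp at this
  · intro h
    have := congrFun h 0
    rw [x, if_neg hP, E.zero] at this
    have h1 := value_algebraMap P (1 : K)
    rw [map_one] at h1
    rw [h1] at this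
    simp at this

theorem nx_pos (A : AVFam K ι) (v : ι) (P : Place K F) : 0 < E.nx A v P :=
  AVFam.nrm_pos v (x_ne_zero P)

theorem dl_nonneg (A : AVFam K ι) (v : ι) (P Q : Place K F) : 0 ≤ E.dl A v P Q :=
  div_nonneg (Real.iSup_nonneg fun _ => (A.nv v).nonneg _)
    (mul_nonneg (nx_pos A v P).le (nx_pos A v Q).le)

theorem dD_nonneg (A : AVFam K ι) (v : ι) (P : Place K F) (D : Divisor K F) :
    0 ≤ E.dD A v P D := Finset.prod_nonneg fun Q _ => pow_nonneg (dl_nonneg A v P Q) _

/-- `|dot c P| ≤ C ‖c‖ ‖x P‖` -/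
theorem dot_le (A : AVFam K ι) : ∃ C, MC C ∧ ∀ v c P,
    A.nv v (E.dot c P) ≤ C v * (sup A v c * E.nx A v P) := by
  refine ⟨A.cst (Fintype.card (Fin (E.r + 1))), A.mc_cst _, fun v c P => ?_⟩
  refine A.sum_le' _ v (mul_nonneg (AVFam.nrm_nonneg v c) (nx_pos A v P).le) fun i => ?_
  rw [map_mul]
  exact mul_le_mul (AVFam.le_nrm v c i) (AVFam.le_nrm v (E.x P) i) ((A.nv v).nonneg _)
    (AVFam.nrm_nonneg v c)

end Emb

end Fermat.Agent.MWH
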