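import Fermat.Agent.MWH.Cmp

/-!
# [T1]: Slater determinants of a multiple of an embedding
-/

set_option autoImplicit false
set_option linter.unusedSectionVars false
set_option linter.style.haveILetI false

noncomputable section

namespace Fermat.Agent.MWH

open AlgebraicCurve Fermat.Agent.Curves Fermat.Agent.PicFlat Fermat.Agent.MWG

variable {K F ι : Type*} [Field K] [IsAlgClosed K] [Field F] [Algebra K F] [IsFunctionField K F]

/-- the linear form through a point which is large at another point -/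
theorem exists_two (E₀ : Emb K F) (A : AVFam K ι) (v : ι) (Q R : Place K F) :
    ∃ h : Fin (E₀.r + 1) → K, E₀.dot h R = 0 ∧
      A.nv v (E₀.dot h Q) = E₀.dl A v Q R * (E₀.nx A v Q * E₀.nx A v R) ∧
      A.nrm v h ≤ E₀.nx A v R := by
  classical
  obtain ⟨⟨i, b⟩, hib⟩ := exists_eq_ciSup_of_finite
    (f := fun ij : Fin (E₀.r + 1) × Fin (E₀.r + 1) =>
      A.nv v (E₀.x Q ij.1 * E₀.x R ij.2 - E₀.x Q ij.2 * E₀.x R ij.1))
  simp only at hib
  have hnQ := Emb.nx_pos (E := E₀) A v Q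
  have hnR := Emb.nx_pos (E := E₀) A v R
  have hd : ∀ S, E₀.dot (fun l => (if l = i then E₀.x R b else 0) -
      (if l = b then E₀.x R i else 0)) S = E₀.x R b * E₀.x S i - E₀.x R i * E₀.x S b := fun S => by
    simp only [Emb.dot, sub_mul, ite_mul, zero_mul, Finset.sum_sub_distrib, Finset.sum_ite_eq',
      Finset.mem_univ, if_true]
  refine ⟨fun l => (if l = i then E₀.x R b else 0) - (if l = b then E₀.x R i else 0), ?_, ?_, ?_⟩
  · rw [hd]; ring
  · rw [hd, Emb.dl, div_mul_cancel₀ _ (mul_pos hnQ hnR).ne', ← hib]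
    congr 1
    ring
  · refine AVFam.nrm_le fun l => ?_
    by_cases h1 : l = i
    · by_cases h2 : l = b
      · rw [if_pos h1, if_pos h2, ← h1, ← h2, sub_self, map_zero]
        exact hnR.le
      · rw [if_pos h1, if_neg h2, sub_zero]
        exact AVFam.le_nrm v (E₀.x R) b
    · by_cases h2 : l = b
      · rw [if_neg h1, if_pos h2, zero_sub, AbsoluteValue.map_neg]
        exact AVFam.le_nrm v (E₀.x R) i
      · rw [if_neg h1, if_neg h2, sub_zero, map_zero]
        exact hnR.le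

variable {E₀ E : Emb K F}

/-- **a section of the multiple vanishing at given points and large at another point** -/
theorem exists_sep (A : AVFam K ι) {a n : ℕ} (hinf : E.inf = E₀.inf) (hm : E.m = (a + n) * E₀.m) :
    ∃ C, MC C ∧ ∀ v (Q : Place K F) (R : Fin a → Place K F), ∃ c : Fin (E.r + 1) → K,
      (∀ j, E.dot c (R j) = 0) ∧
      E₀.nx A v Q ^ (a + n) * ∏ j, (E₀.dl A v Q (R j) * E₀.nx A v (R j)) ≤
        C v * A.nv v (E.dot c Q) ∧
      A.nrm v c ≤ C v * ∏ j, E₀.nx A v (R j) := by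
  classical
  have hne : ∀ P, Emb.eps E₀ E (a + n) P ≠ 0 := fun P => Emb.eps_ne hinf hm P
  obtain ⟨Ce, hCe, he⟩ := eps_bd A E₀ E (a + n) hne
  obtain ⟨Cp, hCp, hp⟩ := exists_prod_form A hinf hm
  refine ⟨fun v => Ce v * Cp v, hCe.mul hCp, fun v Q R => ?_⟩
  choose h1 h1z h1v h1n using fun j => exists_two E₀ A v Q (R j)
  obtain ⟨b, hb⟩ := AVFam.exists_nrm (A := A) v (E₀.x Q)
  obtain ⟨c, hc, hcn⟩ := hp v (fun t => Fin.addCases h1 (fun _ => Pi.single b 1) t)
  have hoe := hCe.one_le v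
  have hop := hCp.one_le v
  refine ⟨c, fun j => ?_, ?_, ?_⟩
  · have h2 := hc (R j)
    rw [Fin.prod_univ_add, Finset.prod_eq_zero (Finset.mem_univ j), zero_mul] at h2
    · exact (mul_eq_zero.1 h2).resolve_left (hne _)
    · rw [Fin.addCases_left, h1z]
  · have h2 := congrArg (A.nv v) (hc Q)
    rw [Fin.prod_univ_add] at h2
    simp only [Fin.addCases_left, Fin.addCases_right, ← Emb.x_eq_dot, Finset.prod_const,
      Finset.card_univ, Fintype.card_fin] at h2
    rw [map_mul, map_mul, map_prod, map_pow, hb] at h2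
    change _ = _ * E₀.nx A v Q ^ n at h2
    have h3 : (∏ j, A.nv v (E₀.dot (h1 j) Q)) =
        E₀.nx A v Q ^ a * ∏ j, (E₀.dl A v Q (R j) * E₀.nx A v (R j)) := by
      rw [Finset.prod_congr rfl fun j _ => h1v j]
      have h4 : E₀.nx A v Q ^ a = ∏ _j : Fin a, E₀.nx A v Q := by
        rw [Finset.prod_const, Finset.card_univ, Fintype.card_fin]
      rw [h4, ← Finset.prod_mul_distrib]
      refine Finset.prod_congr rfl fun j _ => by ring
    rw [h3] at h2
    calc E₀.nx A v Q ^ (a + n) * ∏ j, (E₀.dl A v Q (R j) * E₀.nx A v (R j))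
        = A.nv v (Emb.eps E₀ E (a + n) Q) * A.nv v (E.dot c Q) := by rw [h2, pow_add]; ring
      _ ≤ Ce v * A.nv v (E.dot c Q) := mul_le_mul_of_nonneg_right (he v Q).1 ((A.nv v).nonneg _)
      _ ≤ _ := mul_le_mul_of_nonneg_right (le_mul_of_one_le_right (by linarith) hop)
          ((A.nv v).nonneg _)
  · refine hcn.trans ?_
    rw [Fin.prod_univ_add]
    simp only [Fin.addCases_left, Fin.addCases_right, Finset.prod_const, Finset.card_univ,
      Fintype.card_fin]
    have h2 : A.nrm v (Pi.single b (1 : K) : Fin (E₀.r + 1) → K) ^ n ≤ 1 := by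
      refine pow_le_one₀ (AVFam.nrm_nonneg v _) (AVFam.nrm_le fun i => ?_)
      rcases eq_or_ne i b with rfl | hi
      · simp
      · rw [Pi.single_eq_of_ne hi, map_zero]; exact zero_le_one
    have h3 : ∏ j, A.nrm v (h1 j) ≤ ∏ j, E₀.nx A v (R j) :=
      Finset.prod_le_prod (fun j _ => AVFam.nrm_nonneg v _) fun j _ => h1n j
    have h4 : 0 ≤ ∏ j, E₀.nx A v (R j) := Finset.prod_nonneg fun j _ => (Emb.nx_pos A v _).le
    calc Cp v * ((∏ j, A.nrm v (h1 j)) * A.nrm v (Pi.single b (1 : K) : Fin (E₀.r + 1) → K) ^ n)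
        ≤ Cp v * ((∏ j, E₀.nx A v (R j)) * 1) := by
          refine mul_le_mul_of_nonneg_left (mul_le_mul h3 h2 (pow_nonneg (AVFam.nrm_nonneg v _) _)
            h4) (by linarith)
      _ ≤ _ := by
          rw [mul_one]
          exact mul_le_mul_of_nonneg_right (le_mul_of_one_le_left (by linarith) hoe) h4

theorem dot_mul_det (E : Emb K F) {a : ℕ} (P : Fin (a + 1) → Place K F) (c : Fin (E.r + 1) → K)
    (hc : ∀ j : Fin a, E.dot c (P j.succ) = 0) (s : Fin a → Fin (E.r + 1)) :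
    E.dot c (P 0) * Matrix.det (Matrix.of fun i j => E.x (P (Fin.succ i)) (s j)) =
      ∑ l, c l * Matrix.det (Matrix.of fun i j =>
        E.x (P i) ((Fin.cons l s : Fin (a + 1) → Fin (E.r + 1)) j)) := by
  have h1 : ∀ l, Matrix.det (Matrix.of fun i j =>
        E.x (P i) ((Fin.cons l s : Fin (a + 1) → Fin (E.r + 1)) j)) =
      ∑ i : Fin (a + 1), (-1) ^ (i : ℕ) * E.x (P i) l *
        Matrix.det (Matrix.of fun (i' j' : Fin a) => E.x (P (i.succAbove i')) (s j')) := by
    intro l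
    rw [Matrix.det_succ_column_zero]
    refine Finset.sum_congr rfl fun i _ => ?_
    rw [Matrix.of_apply, Fin.cons_zero]
    congr 2
  simp only [h1, Finset.mul_sum]
  rw [Finset.sum_comm]
  have h2 : ∀ i : Fin (a + 1), ∑ l, c l * ((-1) ^ (i : ℕ) * E.x (P i) l *
        Matrix.det (Matrix.of fun (i' j' : Fin a) => E.x (P (i.succAbove i')) (s j'))) =
      (-1) ^ (i : ℕ) * E.dot c (P i) *
        Matrix.det (Matrix.of fun (i' j' : Fin a) => E.x (P (i.succAbove i')) (s j')) := by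
    intro i
    rw [Emb.dot, Finset.mul_sum, Finset.sum_mul]
    refine Finset.sum_congr rfl fun l _ => by ring
  simp only [h2]
  rw [Fin.sum_univ_succ, Finset.sum_eq_zero fun j _ => by rw [hc j, mul_zero, zero_mul], add_zero]
  simp

theorem slat_nonneg (E : Emb K F) (A : AVFam K ι) (v : ι) {d : ℕ} (P : Fin d → Place K F) :
    0 ≤ slat E A v P := AVFam.nrm_nonneg v _

theorem slat_step (E : Emb K F) (A : AVFam K ι) (v : ι) {a : ℕ} (P : Fin (a + 1) → Place K F)
    (c : Fin (E.r + 1) → K) (hc : ∀ j : Fin a, E.dot c (P j.succ) = 0) :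
    A.nv v (E.dot c (P 0)) * slat E A v (fun j => P (Fin.succ j)) ≤
      A.cst (E.r + 1) v * (A.nrm v c * slat E A v P) := by
  classical
  obtain ⟨s, hs⟩ := AVFam.exists_nrm (A := A) v (fun s : Fin a → Fin (E.r + 1) =>
    Matrix.det (Matrix.of fun i j => E.x (P (Fin.succ i)) (s j)))
  rw [slat, ← hs, ← map_mul, dot_mul_det E P c hc s]
  have := A.sum_le' (fun l => c l * Matrix.det (Matrix.of fun i j =>
        E.x (P i) ((Fin.cons l s : Fin (a + 1) → Fin (E.r + 1)) j))) v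
    (mul_nonneg (AVFam.nrm_nonneg (A := A) v c) (slat_nonneg E A v P)) fun l => ?_
  · rw [Fintype.card_fin] at this
    exact this
  · rw [map_mul]
    exact mul_le_mul (AVFam.le_nrm v c l) (AVFam.le_nrm v (fun s : Fin (a + 1) → Fin (E.r + 1) =>
      Matrix.det (Matrix.of fun i j => E.x (P i) (s j))) _) ((A.nv v).nonneg _)
      (AVFam.nrm_nonneg v c)

/-- the right hand side of [T1] -/
def slw (E₀ : Emb K F) (A : AVFam K ι) (k : ℕ) (v : ι) {d : ℕ} (P : Fin d → Place K F) : ℝ :=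
  (∏ i, E₀.nx A v (P i) ^ k) * ∏ i, ∏ j ∈ Finset.univ.filter (i < ·), E₀.dl A v (P i) (P j)

theorem prod_pairs_succ {a : ℕ} (f : Fin (a + 1) → Fin (a + 1) → ℝ) :
    ∏ i, ∏ j ∈ Finset.univ.filter (i < ·), f i j =
      (∏ j : Fin a, f 0 j.succ) *
        ∏ i : Fin a, ∏ j ∈ Finset.univ.filter (i < ·), f i.succ j.succ := by
  classical
  rw [Fin.prod_univ_succ]
  congr 1
  · rw [Finset.prod_filter, Fin.prod_univ_succ]
    simp
  · refine Finset.prod_congr rfl fun i _ => ?_
    rw [Finset.prod_filter, Fin.prod_univ_succ, Finset.prod_filter]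
    simp

theorem slw_succ (E₀ : Emb K F) (A : AVFam K ι) (k : ℕ) (v : ι) {a : ℕ}
    (P : Fin (a + 1) → Place K F) :
    slw E₀ A k v P = (E₀.nx A v (P 0) ^ k * ∏ j : Fin a, E₀.dl A v (P 0) (P j.succ)) *
      slw E₀ A k v (fun j => P (Fin.succ j)) := by
  rw [slw, slw, prod_pairs_succ, Fin.prod_univ_succ]
  ring

theorem slw_nonneg (E₀ : Emb K F) (A : AVFam K ι) (k : ℕ) (v : ι) {d : ℕ}
    (P : Fin d → Place K F) : 0 ≤ slw E₀ A k v P :=
  mul_nonneg (Finset.prod_nonneg fun i _ => pow_nonneg (Emb.nx_pos A v _).le _)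
    (Finset.prod_nonneg fun i _ => Finset.prod_nonneg fun j _ => Emb.dl_nonneg A v _ _)

/-- the lower bound -/
theorem slat_lb (A : AVFam K ι) {k : ℕ} (hinf : E.inf = E₀.inf) (hm : E.m = k * E₀.m) :
    ∀ a : ℕ, a ≤ k → ∃ C, MC C ∧ ∀ v (P : Fin a → Place K F),
      slw E₀ A k v P ≤ C v * slat E A v P := by
  classical
  intro a
  induction a with
  | zero =>
    intro _
    refine ⟨fun _ => 1, MC.one, fun v P => ?_⟩
    have h1 : (1 : ℝ) ≤ slat E A v P := by
      have := AVFam.le_nrm (A := A) v (fun s : Fin 0 → Fin (E.r + 1) =>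
        Matrix.det (Matrix.of fun i j => E.x (P i) (s j))) Fin.elim0
      refine le_trans (le_of_eq ?_) this
      simp
    rw [one_mul]
    refine le_trans (le_of_eq ?_) h1
    simp [slw]
  | succ a ih =>
    intro hak
    obtain ⟨Ca, hCa, ha⟩ := ih (by omega)
    obtain ⟨n, rfl⟩ := Nat.exists_eq_add_of_le (show a ≤ k by omega)
    obtain ⟨C, hC, hs⟩ := exists_sep A (a := a) (n := n) hinf hm
    refine ⟨fun v => Ca v * (C v * (A.cst (E.r + 1) v * C v)),
      hCa.mul (hC.mul ((A.mc_cst _).mul hC)), fun v P => ?_⟩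
    obtain ⟨c, hc0, hcl, hcn⟩ := hs v (P 0) (fun j => P j.succ)
    have h1 := slat_step E A v P c hc0
    have h2 := ha v (fun j => P j.succ)
    set N := ∏ j : Fin a, E₀.nx A v (P j.succ) with hN
    have hNp : 0 < N := Finset.prod_pos fun j _ => Emb.nx_pos A v _
    set T := slat E A v (fun j => P (Fin.succ j)) with hT
    have hT0 : 0 ≤ T := slat_nonneg E A v _
    set S := slat E A v P with hS
    have hS0 : 0 ≤ S := slat_nonneg E A v _
    set D := ∏ j : Fin a, E₀.dl A v (P 0) (P j.succ) with hD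
    have hD0 : 0 ≤ D := Finset.prod_nonneg fun j _ => Emb.dl_nonneg A v _ _
    set X := E₀.nx A v (P 0) ^ (a + n) with hX
    have hX0 : 0 ≤ X := pow_nonneg (Emb.nx_pos A v _).le _
    rw [Finset.prod_mul_distrib, ← hD, ← hN] at hcl
    have hCn := hC.nonneg v
    have hCan := hCa.nonneg v
    have hcst := (A.mc_cst (E.r + 1)).nonneg v
    have h3 : (X * D * T) * N ≤ (C v * (A.cst (E.r + 1) v * C v) * S) * N := by
      calc (X * D * T) * N = (X * (D * N)) * T := by ring
        _ ≤ (C v * A.nv v (E.dot c (P 0))) * T := mul_le_mul_of_nonneg_right hcl hT0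
        _ = C v * (A.nv v (E.dot c (P 0)) * T) := by ring
        _ ≤ C v * (A.cst (E.r + 1) v * (A.nrm v c * S)) := mul_le_mul_of_nonneg_left h1 hCn
        _ ≤ C v * (A.cst (E.r + 1) v * ((C v * N) * S)) := mul_le_mul_of_nonneg_left
            (mul_le_mul_of_nonneg_left (mul_le_mul_of_nonneg_right hcn hS0) hcst) hCn
        _ = _ := by ring
    have h4 := le_of_mul_le_mul_right h3 hNp
    rw [slw_succ]
    calc (X * D) * slw E₀ A (a + n) v (fun j => P (Fin.succ j)) ≤ (X * D) * (Ca v * T) :=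
          mul_le_mul_of_nonneg_left h2 (mul_nonneg hX0 hD0)
      _ = Ca v * (X * D * T) := by ring
      _ ≤ Ca v * (C v * (A.cst (E.r + 1) v * C v) * S) := mul_le_mul_of_nonneg_left h4 hCan
      _ = _ := by ring

/-- the upper bound -/
theorem slat_ub (A : AVFam K ι) {k : ℕ} (hcmp : Cmp E₀ E k A) (hS : Slater E A) (d : ℕ) :
    ∃ C, MC C ∧ ∀ v (P : Fin d → Place K F), slat E A v P ≤ C v * slw E₀ A k v P := by
  classical
  obtain ⟨Cc, hCc, hc⟩ := hcmp
  obtain ⟨Cs, hCs, hs⟩ := hS d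
  refine ⟨fun v => Cs v * (Cc v ^ d * (Cc v ^ d) ^ d), hCs.mul ((hCc.pow d).mul ((hCc.pow d).pow d)),
    fun v P => AVFam.nrm_le fun s => ?_⟩
  refine (hs v P s).trans ?_
  rw [mul_assoc]
  refine mul_le_mul_of_nonneg_left ?_ (hCs.nonneg v)
  have hCc1 := hCc.one_le v
  have h1 : ∏ i, E.nx A v (P i) ≤ Cc v ^ d * ∏ i, E₀.nx A v (P i) ^ k := by
    have : Cc v ^ d = ∏ _i : Fin d, Cc v := by
      rw [Finset.prod_const, Finset.card_univ, Fintype.card_fin]
    rw [this, ← Finset.prod_mul_distrib]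
    exact Finset.prod_le_prod (fun i _ => (Emb.nx_pos A v _).le) fun i _ => ((hc v).1 (P i)).2
  have h2 : ∏ i, ∏ j ∈ Finset.univ.filter (i < ·), E.dl A v (P i) (P j) ≤
      (Cc v ^ d) ^ d * ∏ i, ∏ j ∈ Finset.univ.filter (i < ·), E₀.dl A v (P i) (P j) := by
    have : (Cc v ^ d) ^ d = ∏ _i : Fin d, Cc v ^ d := by
      rw [Finset.prod_const, Finset.card_univ, Fintype.card_fin]
    rw [this, ← Finset.prod_mul_distrib]
    refine Finset.prod_le_prod (fun i _ => Finset.prod_nonneg fun j _ => Emb.dl_nonneg A v _ _)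
      fun i _ => ?_
    have h3 : ∏ j ∈ Finset.univ.filter (i < ·), E.dl A v (P i) (P j) ≤
        ∏ j ∈ Finset.univ.filter (i < ·), (Cc v * E₀.dl A v (P i) (P j)) :=
      Finset.prod_le_prod (fun j _ => Emb.dl_nonneg A v _ _) fun j _ => (hc v).2 (P i) (P j)
    refine h3.trans ?_
    rw [Finset.prod_mul_distrib, Finset.prod_const]
    refine mul_le_mul_of_nonneg_right (pow_le_pow_right₀ hCc1 ?_)
      (Finset.prod_nonneg fun j _ => Emb.dl_nonneg A v _ _)
    refine (Finset.card_le_univ _).trans (by rw [Fintype.card_fin])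
  calc (∏ i, E.nx A v (P i)) * ∏ i, ∏ j ∈ Finset.univ.filter (i < ·), E.dl A v (P i) (P j)
      ≤ (Cc v ^ d * ∏ i, E₀.nx A v (P i) ^ k) *
        ((Cc v ^ d) ^ d * ∏ i, ∏ j ∈ Finset.univ.filter (i < ·), E₀.dl A v (P i) (P j)) :=
        mul_le_mul h1 h2 (Finset.prod_nonneg fun i _ => Finset.prod_nonneg fun j _ =>
          Emb.dl_nonneg A v _ _) (mul_nonneg (pow_nonneg (by linarith) _)
          (Finset.prod_nonneg fun i _ => pow_nonneg (Emb.nx_pos A v _).le _))
    _ = _ := by rw [slw]; ring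

/-- **[T1]** -/
theorem t1 (A : AVFam K ι) {k d : ℕ} (hinf : E.inf = E₀.inf) (hm : E.m = k * E₀.m) (hk : 1 ≤ k)
    (h2 : 2 * E₀.c + 2 ≤ E₀.m) (hd : d ≤ k) (hUB : LocUB E A) : T1 E₀ E k A d := by
  obtain ⟨C, hC, h⟩ := slat_lb (E₀ := E₀) (E := E) A hinf hm d hd
  obtain ⟨C', hC', h'⟩ := slat_ub A (cmp A hinf hm hk h2) (MWS.EB.slater E A hUB) d
  refine ⟨fun v => C v * C' v, hC.mul hC', fun v P => ⟨?_, ?_⟩⟩
  · refine (h v P).trans (mul_le_mul_of_nonneg_right ?_ (slat_nonneg E A v P))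
    exact le_mul_of_one_le_right (hC.nonneg v) (hC'.one_le v)
  · refine (h' v P).trans (mul_le_mul_of_nonneg_right ?_ (slw_nonneg E₀ A k v P))
    exact le_mul_of_one_le_left (hC'.nonneg v) (hC.one_le v)

end Fermat.Agent.MWH
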