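import Fermat.Agent.MWH.Defs
import Mathlib.RingTheory.Nullstellensatz

/-!
# Calculus of constants
-/

set_option autoImplicit false
set_option linter.unusedSectionVars false

noncomputable section

namespace Fermat.Agent.MWH

open MvPolynomial

variable {K ι : Type*} [Field K]

theorem MC.pos {C : ι → ℝ} (h : MC C) (v : ι) : 0 < C v := lt_of_lt_of_le one_pos (h.one_le v)

theorem MC.nonneg {C : ι → ℝ} (h : MC C) (v : ι) : 0 ≤ C v := (h.pos v).le

theorem MC.one : MC (fun _ : ι => (1 : ℝ)) := ⟨fun _ => le_rfl, by simp⟩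

theorem MC.mul {C C' : ι → ℝ} (h : MC C) (h' : MC C') : MC (fun v => C v * C' v) where
  one_le v := one_le_mul_of_one_le_of_one_le (h.one_le v) (h'.one_le v)
  fin := (h.fin.union h'.fin).subset fun v hv => by
    simp only [Set.mem_ofPred_eq, Set.mem_union] at hv ⊢
    by_contra hcon
    push Not at hcon
    exact hv (by rw [hcon.1, hcon.2, one_mul])

theorem MC.pow {C : ι → ℝ} (h : MC C) (n : ℕ) : MC (fun v => C v ^ n) where
  one_le v := one_le_pow₀ (h.one_le v)
  fin := h.fin.subset fun v hv => by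
    simp only [Set.mem_ofPred_eq] at hv ⊢
    intro h1
    exact hv (by rw [h1, one_pow])

theorem MC.prod {α : Type*} (s : Finset α) {C : α → ι → ℝ} (h : ∀ a ∈ s, MC (C a)) :
    MC (fun v => ∏ a ∈ s, C a v) := by
  classical
  induction s using Finset.induction_on with
  | empty => simpa using MC.one
  | insert a s ha ih =>
    simp only [Finset.prod_insert ha]
    exact (h a (Finset.mem_insert_self a s)).mul
      (ih fun b hb => h b (Finset.mem_insert_of_mem hb))

theorem MC.le_prod {α : Type*} {s : Finset α} {C : α → ι → ℝ} (h : ∀ a ∈ s, MC (C a)) {a : α}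
    (ha : a ∈ s) (v : ι) : C a v ≤ ∏ b ∈ s, C b v := by
  classical
  rw [← Finset.mul_prod_erase s _ ha]
  refine le_mul_of_one_le_right ((h a ha).nonneg v) ?_
  have h1 := Finset.prod_le_prod (s := s.erase a) (f := fun _ => (1 : ℝ)) (g := fun b => C b v)
    (fun _ _ => zero_le_one) (fun b hb => (h b (Finset.mem_of_mem_erase hb)).one_le v)
  rwa [Finset.prod_const_one] at h1

/-- uniform choice of constants over a finite family of statements -/
theorem exists_mc_finset {α X : Type*} (s : Finset α) (P : α → ι → X → ℝ → Prop)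
    (mono : ∀ a v x C C', C ≤ C' → P a v x C → P a v x C')
    (h : ∀ a ∈ s, ∃ C, MC C ∧ ∀ v x, P a v x (C v)) :
    ∃ C, MC C ∧ ∀ v, ∀ a ∈ s, ∀ x, P a v x (C v) := by
  classical
  choose! C hC using h
  refine ⟨fun v => ∏ a ∈ s, C a v, MC.prod s fun a ha => (hC a ha).1, fun v a ha x => ?_⟩
  exact mono a v x _ _ (MC.le_prod (fun b hb => (hC b hb).1) ha v) ((hC a ha).2 v x)

variable (A : AVFam K ι)

/-- constant for sums of `n` terms -/
def AVFam.cst (n : ℕ) (v : ι) : ℝ := by
  classical exact if IsNonarchimedean (A.nv v) then 1 else max 1 n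

theorem AVFam.mc_cst (n : ℕ) : MC (A.cst n) where
  one_le v := by
    unfold AVFam.cst
    split_ifs
    · exact le_rfl
    · exact le_max_left _ _
  fin := A.nonarch.subset fun v hv => by
    simp only [Set.mem_ofPred_eq] at hv ⊢
    intro h
    apply hv
    unfold AVFam.cst
    rw [if_pos h]

theorem AVFam.sum_le {α : Type*} (s : Finset α) (y : α → K) (v : ι) {M : ℝ} (hM : 0 ≤ M)
    (h : ∀ a ∈ s, A.nv v (y a) ≤ M) : A.nv v (∑ a ∈ s, y a) ≤ A.cst s.card v * M := by
  classical
  unfold AVFam.cst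
  split_ifs with hn
  · rw [one_mul]
    induction s using Finset.induction_on with
    | empty => simpa using hM
    | insert a s ha ih =>
      rw [Finset.sum_insert ha]
      refine (hn _ _).trans (max_le (h a (Finset.mem_insert_self a s)) ?_)
      exact ih fun b hb => h b (Finset.mem_insert_of_mem hb)
  · refine ((A.nv v).sum_le s y).trans ?_
    refine (Finset.sum_le_card_nsmul s _ M h).trans ?_
    rw [nsmul_eq_mul]
    exact mul_le_mul_of_nonneg_right (le_max_right _ _) hM

theorem AVFam.sum_le' {α : Type*} [Fintype α] (y : α → K) (v : ι) {M : ℝ} (hM : 0 ≤ M)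
    (h : ∀ a, A.nv v (y a) ≤ M) :
    A.nv v (∑ a, y a) ≤ A.cst (Fintype.card α) v * M :=
  A.sum_le Finset.univ y v hM fun a _ => h a

/-- bound for an element -/
def AVFam.bd (α : K) (v : ι) : ℝ := max 1 (A.nv v α)

theorem AVFam.mc_bd (α : K) : MC (A.bd α) where
  one_le v := le_max_left _ _
  fin := by
    rcases eq_or_ne α 0 with rfl | hα
    · simp [AVFam.bd]
    · refine (A.fin α hα).subset fun v hv => ?_
      simp only [Set.mem_ofPred_eq, AVFam.bd] at hv ⊢
      intro h
      exact hv (by rw [h, max_self])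

theorem AVFam.le_bd (α : K) (v : ι) : A.nv v α ≤ A.bd α v := le_max_right _ _

/-- bounds for finitely many elements -/
theorem AVFam.exists_bd {α : Type*} (s : Finset α) (y : α → K) :
    ∃ C, MC C ∧ ∀ v, ∀ a ∈ s, A.nv v (y a) ≤ C v := by
  obtain ⟨C, hC, h⟩ := exists_mc_finset (ι := ι) (X := Unit) s
    (fun a v _ C => A.nv v (y a) ≤ C) (fun a v _ C C' h h' => h'.trans h)
    (fun a _ => ⟨A.bd (y a), A.mc_bd _, fun v _ => A.le_bd _ _⟩)
  exact ⟨C, hC, fun v a ha => h v a ha ()⟩

/-- linear forms -/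
theorem AVFam.exists_lin {α : Type*} [Fintype α] (B : α → K) :
    ∃ C, MC C ∧ ∀ v (y : α → K) (M : ℝ), 0 ≤ M → (∀ a, A.nv v (y a) ≤ M) →
      A.nv v (∑ a, B a * y a) ≤ C v * M := by
  obtain ⟨C, hC, h⟩ := A.exists_bd Finset.univ B
  refine ⟨fun v => A.cst (Fintype.card α) v * C v, (A.mc_cst _).mul hC, fun v y M hM hy => ?_⟩
  rw [mul_assoc]
  refine A.sum_le' _ v (mul_nonneg (hC.nonneg v) hM) fun a => ?_
  rw [map_mul]
  exact mul_le_mul (h v a (Finset.mem_univ a)) (hy a) ((A.nv v).nonneg _) (hC.nonneg v)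

/-- polynomials on the unit polydisc, scaled -/
theorem AVFam.exists_poly {σ : Type*} (p : MvPolynomial σ K) :
    ∃ C, MC C ∧ ∀ v (y : σ → K) (M : ℝ), 1 ≤ M → (∀ a, A.nv v (y a) ≤ M) →
      A.nv v (eval y p) ≤ C v * M ^ p.totalDegree := by
  classical
  obtain ⟨C, hC, h⟩ := A.exists_bd p.support (fun m => coeff m p)
  refine ⟨fun v => A.cst p.support.card v * C v, (A.mc_cst _).mul hC, fun v y M hM hy => ?_⟩
  rw [eval_eq, mul_assoc]
  refine A.sum_le _ _ v (mul_nonneg (hC.nonneg v) (pow_nonneg (zero_le_one.trans hM) _))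
    fun m hm => ?_
  rw [map_mul]
  refine mul_le_mul (h v m hm) ?_ ((A.nv v).nonneg _) (hC.nonneg v)
  rw [map_prod]
  have h1 : ∀ i ∈ m.support, A.nv v (y i ^ m i) ≤ M ^ m i := fun i _ => by
    rw [map_pow]
    exact pow_le_pow_left₀ ((A.nv v).nonneg _) (hy i) _
  refine (Finset.prod_le_prod (fun i _ => (A.nv v).nonneg _) h1).trans ?_
  rw [Finset.prod_pow_eq_pow_sum]
  exact pow_le_pow_right₀ hM (le_totalDegree hm)

theorem AVFam.exists_poly1 {σ : Type*} (p : MvPolynomial σ K) :
    ∃ C, MC C ∧ ∀ v (y : σ → K), (∀ a, A.nv v (y a) ≤ 1) → A.nv v (eval y p) ≤ C v := by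
  obtain ⟨C, hC, h⟩ := A.exists_poly p
  refine ⟨C, hC, fun v y hy => ?_⟩
  simpa using h v y 1 le_rfl hy

/-- **Nullstellensatz bound** -/
theorem AVFam.exists_ns [IsAlgClosed K] {σ α : Type*} [Finite σ] [Fintype α]
    (p : α → MvPolynomial σ K) (h : ∀ x : σ → K, ∃ a, eval x (p a) ≠ 0) :
    ∃ C, MC C ∧ ∀ v (x : σ → K), (∀ i, A.nv v (x i) ≤ 1) →
      ∃ a, 1 ≤ C v * A.nv v (eval x (p a)) := by
  classical
  set I : Ideal (MvPolynomial σ K) := Ideal.span (Set.range p) with hI
  have htop : I = ⊤ := by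
    have h1 : zeroLocus K I = ∅ := by
      rw [Set.eq_empty_iff_forall_notMem]
      intro x hx
      obtain ⟨a, ha⟩ := h x
      apply ha
      have h2 := hx _ (Ideal.subset_span (Set.mem_range_self a))
      rw [← h2]
      rfl
    have h3 := vanishingIdeal_zeroLocus_eq_radical (K := K) I
    rw [h1, vanishingIdeal_empty] at h3
    exact Ideal.radical_eq_top.mp h3.symm
  have h4 : (1 : MvPolynomial σ K) ∈ Ideal.span (Set.range p) := by
    rw [← hI, htop]; exact Submodule.mem_top
  obtain ⟨q, hq⟩ := (Ideal.mem_span_range_iff_exists_fun).1 h4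
  have h5 : ∀ a : α, ∃ C, MC C ∧ ∀ v (y : σ → K), (∀ a, A.nv v (y a) ≤ 1) →
    A.nv v (eval y (q a)) ≤ C v := fun a => A.exists_poly1 (q a)
  choose D hD hD' using h5
  refine ⟨fun v => A.cst (Fintype.card α) v * ∏ a, D a v,
    (A.mc_cst _).mul (MC.prod _ fun a _ => hD a), fun v x hx => ?_⟩
  by_contra hcon
  push Not at hcon
  have hne : Nonempty α := (h 0).nonempty
  obtain ⟨a₀, ha₀⟩ := exists_eq_ciSup_of_finite (f := fun a => A.nv v (eval x (p a)))
  have hmax : ∀ a, A.nv v (eval x (p a)) ≤ A.nv v (eval x (p a₀)) := fun a => by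
    rw [ha₀]
    exact le_ciSup (f := fun a => A.nv v (eval x (p a))) (Set.finite_range _).bddAbove a
  have h6 : (1 : K) = ∑ a, eval x (q a) * eval x (p a) := by
    have := congrArg (eval x) hq
    rw [map_sum, map_one] at this
    rw [← this]
    exact Finset.sum_congr rfl fun a _ => by rw [map_mul]
  have hDn : ∀ a, 0 ≤ D a v := fun a => (hD a).nonneg v
  have h7 : A.nv v 1 ≤ A.cst (Fintype.card α) v * ((∏ a, D a v) * A.nv v (eval x (p a₀))) := by
    rw [h6]
    refine A.sum_le' _ v (mul_nonneg (Finset.prod_nonneg fun a _ => hDn a) ((A.nv v).nonneg _))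
      fun a => ?_
    rw [map_mul]
    refine mul_le_mul ((hD' a v x hx).trans ?_) (hmax a) ((A.nv v).nonneg _)
      (Finset.prod_nonneg fun a _ => hDn a)
    exact MC.le_prod (fun b _ => hD b) (Finset.mem_univ a) v
  rw [map_one, ← mul_assoc] at h7
  exact absurd h7 (not_le.2 (hcon a₀))

/-! ## norms of vectors -/

variable {A}

/-- sup norm -/
def AVFam.nrm (A : AVFam K ι) (v : ι) {α : Type*} (c : α → K) : ℝ := ⨆ i, A.nv v (c i)

theorem sup_eq {n : ℕ} (v : ι) (c : Fin (n + 1) → K) : sup A v c = A.nrm v c := rfl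

theorem AVFam.le_nrm {α : Type*} [Finite α] (v : ι) (c : α → K) (i : α) :
    A.nv v (c i) ≤ A.nrm v c :=
  le_ciSup (f := fun i => A.nv v (c i)) (Set.finite_range _).bddAbove i

theorem AVFam.nrm_le {α : Type*} [Nonempty α] {v : ι} {c : α → K} {M : ℝ}
    (h : ∀ i, A.nv v (c i) ≤ M) : A.nrm v c ≤ M := ciSup_le h

theorem AVFam.exists_nrm {α : Type*} [Finite α] [Nonempty α] (v : ι) (c : α → K) :
    ∃ i, A.nv v (c i) = A.nrm v c := exists_eq_ciSup_of_finite (f := fun i => A.nv v (c i))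

theorem AVFam.nrm_nonneg {α : Type*} [Finite α] [Nonempty α] (v : ι) (c : α → K) :
    0 ≤ A.nrm v c := by
  obtain ⟨i, hi⟩ := AVFam.exists_nrm (A := A) v c
  rw [← hi]
  exact (A.nv v).nonneg _

theorem AVFam.nrm_pos {α : Type*} [Finite α] (v : ι) {c : α → K} (hc : c ≠ 0) :
    0 < A.nrm v c := by
  obtain ⟨i, hi⟩ := Function.ne_iff.1 hc
  exact lt_of_lt_of_le ((A.nv v).pos hi) (AVFam.le_nrm v c i)

theorem AVFam.nrm_eq_zero {α : Type*} [Finite α] [Nonempty α] {v : ι} {c : α → K} :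
    A.nrm v c = 0 ↔ c = 0 := by
  constructor
  · intro h
    by_contra hc
    exact (AVFam.nrm_pos (A := A) v hc).ne' h
  · rintro rfl
    refine le_antisymm (AVFam.nrm_le fun i => by simp) (AVFam.nrm_nonneg v _)

theorem AVFam.nrm_smul {α : Type*} [Finite α] [Nonempty α] (v : ι) (t : K) (c : α → K) :
    A.nrm v (fun i => t * c i) = A.nv v t * A.nrm v c := by
  refine le_antisymm (AVFam.nrm_le fun i => ?_) ?_
  · rw [map_mul]
    exact mul_le_mul_of_nonneg_left (AVFam.le_nrm v c i) ((A.nv v).nonneg _)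
  · obtain ⟨i, hi⟩ := AVFam.exists_nrm (A := A) v c
    rw [← hi, ← map_mul]
    exact AVFam.le_nrm v (fun i => t * c i) i

/-- **lower bound for multiplication in a domain** -/
theorem AVFam.mul_lower [IsAlgClosed K] {F : Type*} [Field F] [Algebra K F] {α β γ : Type*}
    [Fintype α] [Fintype β] [Fintype γ] [Nonempty α] [Nonempty β] (A : AVFam K ι) (h : α → F)
    (hh : LinearIndependent K h) (y : β → F) (hy : LinearIndependent K y) (ζ : γ → F)
    (s : α → β → γ → K) (hs : ∀ i j, h i * y j = ∑ l, s i j l • ζ l) :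
    ∃ C, MC C ∧ ∀ v (c : α → K) (d : β → K), A.nrm v c * A.nrm v d ≤
      C v * A.nrm v (fun l => ∑ i, ∑ j, c i * d j * s i j l) := by
  classical
  -- the polynomials of the chart `i₀, j₀`
  let p : α × β → (Option (Option γ)) → MvPolynomial (α ⊕ β) K := fun ij o =>
    match o with
    | none => X (Sum.inl ij.1) - 1
    | some none => X (Sum.inr ij.2) - 1
    | some (some l) => ∑ i, ∑ j, X (Sum.inl i) * X (Sum.inr j) * C (s i j l)
  have hp : ∀ ij, ∀ x : α ⊕ β → K, ∃ o, eval x (p ij o) ≠ 0 := by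
    intro ij x
    by_contra hcon
    push Not at hcon
    have h1 : x (Sum.inl ij.1) = 1 := by
      have := hcon none
      simp only [p, map_sub, eval_X, map_one, sub_eq_zero] at this
      exact this
    have h2 : x (Sum.inr ij.2) = 1 := by
      have := hcon (some none)
      simp only [p, map_sub, eval_X, map_one, sub_eq_zero] at this
      exact this
    have h3 : ∀ l, ∑ i, ∑ j, x (Sum.inl i) * x (Sum.inr j) * s i j l = 0 := fun l => by
      have := hcon (some (some l))
      simpa only [p, map_sum, map_mul, eval_X, eval_C] using this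
    have h4 : (∑ i, x (Sum.inl i) • h i) * (∑ j, x (Sum.inr j) • y j) = 0 := by
      rw [Finset.sum_mul_sum]
      have : ∀ i j, x (Sum.inl i) • h i * x (Sum.inr j) • y j =
        ∑ l, (x (Sum.inl i) * x (Sum.inr j) * s i j l) • ζ l := fun i j => by
        rw [smul_mul_smul_comm, hs, Finset.smul_sum]
        exact Finset.sum_congr rfl fun l _ => by rw [smul_smul]
      simp only [this]
      rw [Finset.sum_congr rfl fun i _ => Finset.sum_comm, Finset.sum_comm]
      refine Finset.sum_eq_zero fun l _ => ?_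
      simp only [← Finset.sum_smul]
      rw [h3 l, zero_smul]
    rcases mul_eq_zero.1 h4 with h5 | h5
    · have := (Fintype.linearIndependent_iff.1 hh) _ h5 ij.1
      rw [h1] at this
      exact one_ne_zero this
    · have := (Fintype.linearIndependent_iff.1 hy) _ h5 ij.2
      rw [h2] at this
      exact one_ne_zero this
  have hns := fun ij => A.exists_ns (p ij) (hp ij)
  choose D hD hD' using hns
  refine ⟨fun v => ∏ ij, D ij v, MC.prod _ fun ij _ => hD ij, fun v c d => ?_⟩
  rcases eq_or_ne c 0 with rfl | hc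
  · rw [(AVFam.nrm_eq_zero (A := A) (v := v)).2 rfl, zero_mul]
    refine mul_nonneg (Finset.prod_nonneg fun ij _ => (hD ij).nonneg v) ?_
    exact Real.iSup_nonneg fun i => (A.nv v).nonneg _
  rcases eq_or_ne d 0 with rfl | hd
  · rw [(AVFam.nrm_eq_zero (A := A) (v := v) (c := (0 : β → K))).2 rfl, mul_zero]
    refine mul_nonneg (Finset.prod_nonneg fun ij _ => (hD ij).nonneg v) ?_
    exact Real.iSup_nonneg fun i => (A.nv v).nonneg _
  obtain ⟨i₀, hi₀⟩ := AVFam.exists_nrm (A := A) v c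
  obtain ⟨j₀, hj₀⟩ := AVFam.exists_nrm (A := A) v d
  have hc' : 0 < A.nv v (c i₀) := by rw [hi₀]; exact AVFam.nrm_pos v hc
  have hd' : 0 < A.nv v (d j₀) := by rw [hj₀]; exact AVFam.nrm_pos v hd
  have hci : c i₀ ≠ 0 := (A.nv v).pos_iff.1 hc'
  have hdj : d j₀ ≠ 0 := (A.nv v).pos_iff.1 hd'
  let x : α ⊕ β → K := Sum.elim (fun i => c i / c i₀) (fun j => d j / d j₀)
  obtain ⟨o, ho⟩ := hD' (i₀, j₀) v x (fun a => by
    rcases a with i | j
    · simp only [x, Sum.elim_inl, map_div₀]
      exact (div_le_one hc').2 (hi₀ ▸ AVFam.le_nrm v c i)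
    · simp only [x, Sum.elim_inr, map_div₀]
      exact (div_le_one hd').2 (hj₀ ▸ AVFam.le_nrm v d j))
  have h01 : ¬ (1 : ℝ) ≤ D (i₀, j₀) v * A.nv v 0 := by simp
  match o, ho with
  | none, ho =>
    exfalso
    simp only [p, map_sub, eval_X, map_one, x, Sum.elim_inl, div_self hci, sub_self] at ho
    exact h01 ho
  | some none, ho =>
    exfalso
    simp only [p, map_sub, eval_X, map_one, x, Sum.elim_inr, div_self hdj, sub_self] at ho
    exact h01 ho
  | some (some l), ho =>
    have h6 : eval x (p (i₀, j₀) (some (some l))) =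
        (∑ i, ∑ j, c i * d j * s i j l) / (c i₀ * d j₀) := by
      simp only [p, map_sum, map_mul, eval_X, eval_C, x, Sum.elim_inl, Sum.elim_inr]
      rw [Finset.sum_div]
      refine Finset.sum_congr rfl fun i _ => ?_
      rw [Finset.sum_div]
      refine Finset.sum_congr rfl fun j _ => ?_
      field_simp
    rw [h6, map_div₀, map_mul, ← mul_div_assoc, le_div_iff₀ (mul_pos hc' hd'), one_mul] at ho
    rw [← hi₀, ← hj₀]
    refine ho.trans ?_
    refine mul_le_mul ?_ (AVFam.le_nrm v (fun l => ∑ i, ∑ j, c i * d j * s i j l) l)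
      ((A.nv v).nonneg _) (Finset.prod_nonneg fun ij _ => (hD ij).nonneg v)
    exact MC.le_prod (fun b _ => hD b) (Finset.mem_univ _) v

/-- **Vandermonde bound**: for `n + 1` distinct elements `a`, some `∑ a^k z_k` is not small -/
theorem AVFam.vdm (A : AVFam K ι) (n : ℕ) (T : Finset K) :
    ∃ C, MC C ∧ ∀ v (z : Fin (n + 1) → K) (S : Finset K), S ⊆ T → S.card = n + 1 →
      ∃ a ∈ S, A.nrm v z ≤ C v * A.nv v (∑ k : Fin (n + 1), a ^ (k : ℕ) * z k) := by
  classical
  -- for each injective enumeration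
  have key : ∀ e : Fin (n + 1) → K, Function.Injective e → ∃ C, MC C ∧ ∀ v (z : Fin (n + 1) → K),
      ∃ i, A.nrm v z ≤ C v * A.nv v (∑ k : Fin (n + 1), e i ^ (k : ℕ) * z k) := by
    intro e he
    set M := Matrix.vandermonde e
    have hM : IsUnit M.det := by
      rw [isUnit_iff_ne_zero, Matrix.det_vandermonde_ne_zero_iff]
      exact he
    have hMi : M⁻¹ * M = 1 := Matrix.nonsing_inv_mul M hM
    have h1 := fun k => A.exists_lin (fun i => M⁻¹ k i)
    choose D hD hD' using h1
    refine ⟨fun v => ∏ k, D k v, MC.prod _ fun k _ => hD k, fun v z => ?_⟩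
    obtain ⟨i, hi⟩ := AVFam.exists_nrm (A := A) v (fun i => ∑ k : Fin (n + 1), e i ^ (k : ℕ) * z k)
    refine ⟨i, ?_⟩
    rw [hi]
    refine AVFam.nrm_le fun k => ?_
    have h2 : z k = ∑ i, M⁻¹ k i * ∑ l : Fin (n + 1), e i ^ (l : ℕ) * z l := by
      have h3 : z = M⁻¹.mulVec (M.mulVec z) := by rw [Matrix.mulVec_mulVec, hMi, Matrix.one_mulVec]
      conv_lhs => rw [h3]
      rfl
    rw [h2]
    refine (hD' k v _ _ (AVFam.nrm_nonneg v _) fun i =>
      AVFam.le_nrm v (fun i => ∑ k : Fin (n + 1), e i ^ (k : ℕ) * z k) i).trans ?_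
    exact mul_le_mul_of_nonneg_right (MC.le_prod (fun b _ => hD b) (Finset.mem_univ k) v)
      (AVFam.nrm_nonneg v _)
  -- all enumerations into T
  let U : Finset (Fin (n + 1) → K) := Fintype.piFinset fun _ => T
  obtain ⟨C, hC, h⟩ := exists_mc_finset (ι := ι) (X := Fin (n + 1) → K)
    (U.filter fun e => Function.Injective e)
    (fun e v z C => ∃ i, A.nrm v z ≤ C * A.nv v (∑ k : Fin (n + 1), e i ^ (k : ℕ) * z k))
    (fun e v z C C' h ⟨i, hi⟩ => ⟨i, hi.trans (mul_le_mul_of_nonneg_right h ((A.nv v).nonneg _))⟩)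
    (fun e he => key e (Finset.mem_filter.1 he).2)
  refine ⟨C, hC, fun v z S hS hcard => ?_⟩
  let e : Fin (n + 1) → K := fun i => (S.equivFinOfCardEq hcard).symm i
  have he : Function.Injective e := fun i j hij =>
    (S.equivFinOfCardEq hcard).symm.injective (Subtype.ext hij)
  have heS : ∀ i, e i ∈ S := fun i => ((S.equivFinOfCardEq hcard).symm i).2
  obtain ⟨i, hi⟩ := h v e (Finset.mem_filter.2 ⟨Fintype.mem_piFinset.2 fun i => hS (heS i), he⟩) z
  exact ⟨e i, heS i, hi⟩

/-- **Vandermonde count**: all but `n` of the elements of `T` are good -/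
theorem AVFam.vdm_card [DecidableEq K] (A : AVFam K ι) (n : ℕ) (T : Finset K) :
    ∃ C, MC C ∧ ∀ v (z : Fin (n + 1) → K), ∃ B : Finset K, B.card ≤ n ∧
      ∀ a ∈ T, a ∉ B → A.nrm v z ≤ C v * A.nv v (∑ k : Fin (n + 1), a ^ (k : ℕ) * z k) := by
  classical
  obtain ⟨C, hC, h⟩ := A.vdm n T
  refine ⟨C, hC, fun v z => ?_⟩
  refine ⟨T.filter fun a => ¬ A.nrm v z ≤ C v * A.nv v (∑ k : Fin (n + 1), a ^ (k : ℕ) * z k), ?_,
    fun a ha ha' => ?_⟩
  · by_contra hcon
    push Not at hcon
    obtain ⟨S, hS, hcard⟩ := Finset.exists_subset_card_eq (Nat.succ_le_of_lt hcon)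
    obtain ⟨a, ha, ha'⟩ := h v z S (hS.trans (Finset.filter_subset _ _)) hcard
    have h5 := (Finset.mem_filter.1 (hS ha)).2
    exact absurd ha' (not_le.2 h5)
  · by_contra hcon
    exact ha' (Finset.mem_filter.2 ⟨ha, hcon⟩)

end Fermat.Agent.MWH
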