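import Fermat.Agent.PicFlat.RRDim
import Fermat.Agent.Curves.Affine

/-!
# Heights on a curve: definitions and the statements of the local estimates (S17)

`K` algebraically closed with a family of absolute values `nv v`, `F` a function field over `K`,
`V = L(m∞)` embedded by a basis `f 0 = 1, ..., f r`.
-/

set_option autoImplicit false
set_option linter.unusedSectionVars false

noncomputable section

namespace Fermat.Agent.MWH

open AlgebraicCurve Fermat.Agent.Curves Fermat.Agent.PicFlat

/-- a family of absolute values of `K`, trivial on each non-zero element for almost all indices and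
non-archimedean for almost all indices -/
structure AVFam (K : Type*) [Field K] (ι : Type*) where
  nv : ι → AbsoluteValue K ℝ
  fin : ∀ α : K, α ≠ 0 → {v | nv v α ≠ 1}.Finite
  nonarch : {v | ¬ IsNonarchimedean (nv v)}.Finite

/-- a constant: `≥ 1`, and `= 1` for almost all indices -/
structure MC {ι : Type*} (C : ι → ℝ) : Prop where
  one_le : ∀ v, 1 ≤ C v
  fin : {v | C v ≠ 1}.Finite

/-- the embedding of the curve by `L(m∞)`, `m` large -/
structure Emb (K F : Type*) [Field K] [IsAlgClosed K] [Field F] [Algebra K F]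
    [IsFunctionField K F] where
  inf : Place K F
  m : ℕ
  r : ℕ
  f : Fin (r + 1) → F
  zero : f 0 = 1
  li : LinearIndependent K f
  span : Submodule.span K (Set.range f) = riemannRochSpace (Finsupp.single inf (m : ℤ))
  ord_last : inf.ord (f (Fin.last r)) = -(m : ℤ)
  ord_lt : ∀ i, i ≠ Fin.last r → f i ∈ riemannRochSpace (Finsupp.single inf ((m : ℤ) - 1))
  g : ℤ
  c : ℤ
  rr : RR K F g c
  large : c + 3 ≤ m
  pos : 1 ≤ m

variable {K F ι : Type*} [Field K] [IsAlgClosed K] [Field F] [Algebra K F] [IsFunctionField K F]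

open Classical in
/-- projective coordinates of a place -/
def Emb.x (E : Emb K F) (P : Place K F) (i : Fin (E.r + 1)) : K :=
  if P = E.inf then (if i = Fin.last E.r then 1 else 0) else value P (E.f i)

/-- sup norm of a vector -/
def sup (A : AVFam K ι) (v : ι) {n : ℕ} (c : Fin (n + 1) → K) : ℝ := ⨆ i, A.nv v (c i)

/-- sup norm of the coordinates of a place -/
def Emb.nx (E : Emb K F) (A : AVFam K ι) (v : ι) (P : Place K F) : ℝ := sup A v (E.x P)

/-- chordal distance -/
def Emb.dl (E : Emb K F) (A : AVFam K ι) (v : ι) (P Q : Place K F) : ℝ :=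
  (⨆ ij : Fin (E.r + 1) × Fin (E.r + 1),
    A.nv v (E.x P ij.1 * E.x Q ij.2 - E.x P ij.2 * E.x Q ij.1)) / (E.nx A v P * E.nx A v Q)

/-- distance of a place to an effective divisor: `∏ dl(P,Q)^{D(Q)}` -/
def Emb.dD (E : Emb K F) (A : AVFam K ι) (v : ι) (P : Place K F) (D : Divisor K F) : ℝ :=
  D.prod fun Q n => E.dl A v P Q ^ n.toNat

/-- the section `∑ c_i f_i` -/
def Emb.G (E : Emb K F) (c : Fin (E.r + 1) → K) : F := ∑ i, c i • E.f i

/-- the linear form `c` at a place -/
def Emb.dot (E : Emb K F) (c : Fin (E.r + 1) → K) (P : Place K F) : K := ∑ i, c i * E.x P i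

/-- the hyperplane section of `c`: an effective divisor of degree `m` if `c ≠ 0` -/
def Emb.dv (E : Emb K F) (c : Fin (E.r + 1) → K) : Divisor K F :=
  divisorOf (E.G c) + Finsupp.single E.inf (E.m : ℤ)

/-- **[LocUB]** -/
def LocUB (E : Emb K F) (A : AVFam K ι) : Prop :=
  ∃ C : ι → ℝ, MC C ∧ ∀ v c, c ≠ 0 → ∀ P,
    A.nv v (E.dot c P) ≤ C v * (sup A v c * E.nx A v P * E.dD A v P (E.dv c))

/-- **[LocLB]** -/
def LocLB (E : Emb K F) (A : AVFam K ι) : Prop :=
  ∃ C : ι → ℝ, MC C ∧ ∀ v c, c ≠ 0 → ∀ P,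
    sup A v c * E.nx A v P * E.dD A v P (E.dv c) ≤ C v * A.nv v (E.dot c P)

/-- the derivative `dG/dz` at a place at which `z - z(P)` is a uniformizer -/
def dz (z : F) (P : Place K F) (G : F) : K :=
  value P ((G - algebraMap K F (value P G)) / (z - algebraMap K F (value P z)))

/-- `z - z(P)` is a uniformizer at `P` -/
def Unr (z : F) (P : Place K F) : Prop := P.ord (z - algebraMap K F (value P z)) = 1

/-- the size of the tangent vector `d/dz` at `P` -/
def Emb.mu (E : Emb K F) (A : AVFam K ι) (z : F) (v : ι) (P : Place K F) : ℝ :=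
  (⨆ ij : Fin (E.r + 1) × Fin (E.r + 1),
    A.nv v (E.x P ij.1 * dz z P (E.f ij.2) - E.x P ij.2 * dz z P (E.f ij.1))) / E.nx A v P ^ 2

/-- **[LocLB']** (derivative form of LocLB at a simple zero `P` of `G_c`) -/
def LocLB' (E : Emb K F) (A : AVFam K ι) (z : F) : Prop :=
  ∃ C : ι → ℝ, MC C ∧ ∀ v c, c ≠ 0 → ∀ P, P ≠ E.inf → Unr z P → E.dv c P = 1 →
    sup A v c * E.nx A v P * E.dD A v P (E.dv c - Finsupp.single P 1) * E.mu A z v P ≤
      C v * A.nv v (dz z P (E.G c))

open Classical in
/-- the ramification divisor of `z` away from `∞` -/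
def IsRam (E : Emb K F) (z : F) (R : Divisor K F) : Prop :=
  ∀ P : Place K F, R P = if P = E.inf then 0 else P.ord (z - algebraMap K F (value P z)) - 1

/-- **[LocMu]**: `∑ log μ_v(P) ≥ λ(P, Ram) - (e + 1) λ(P, ∞) - C`, `e` the order of the pole of
`z` at `∞` -/
def LocMu (E : Emb K F) (A : AVFam K ι) (z : F) (e : ℕ) (R : Divisor K F) : Prop :=
  ∃ C : ι → ℝ, MC C ∧ ∀ v P, P ≠ E.inf → Unr z P →
    E.dl A v P E.inf ^ (e + 1) ≤ C v * (E.mu A z v P * E.dD A v P R)

/-- **[L2]** (Slater determinants), for `n ≤ r + 1` places and `n` coordinates -/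
def Slater (E : Emb K F) (A : AVFam K ι) : Prop :=
  ∀ n : ℕ, ∃ C : ι → ℝ, MC C ∧ ∀ v (P : Fin n → Place K F) (s : Fin n → Fin (E.r + 1)),
    A.nv v (Matrix.det (Matrix.of fun i j => E.x (P i) (s j))) ≤
      C v * ((∏ i, E.nx A v (P i)) * ∏ i, ∏ j ∈ Finset.univ.filter (i < ·), E.dl A v (P i) (P j))

end Fermat.Agent.MWH
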