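import Fermat.Agent.MWS.QAV
import Fermat.Agent.MWH.Defs
import Mathlib.NumberTheory.Padics.Complex

/-!
# Absolute values of `Qbar` above the places of `ℚ`
-/

set_option autoImplicit false
set_option linter.unusedSectionVars false
set_option linter.style.haveILetI false

noncomputable section

namespace Fermat.Agent.MWH

local notation "Qbar" => AlgebraicClosure ℚ

local instance instAlgQbarAV : Algebra.IsAlgebraic ℚ Qbar := AlgebraicClosure.isAlgebraic ℚ

/-- sums in a non-archimedean absolute value -/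
theorem na_sum_le {R : Type*} [Ring R] {f : AbsoluteValue R ℝ} (h : IsNonarchimedean f)
    {α : Type*} (s : Finset α) (y : α → R) {M : ℝ} (hM : 0 ≤ M) (hy : ∀ i ∈ s, f (y i) ≤ M) :
    f (∑ i ∈ s, y i) ≤ M := by
  classical
  induction s using Finset.induction_on with
  | empty => simpa using hM
  | insert a s ha ih =>
    rw [Finset.sum_insert ha]
    exact (h _ _).trans (max_le (hy a (Finset.mem_insert_self a s))
      (ih fun b hb => hy b (Finset.mem_insert_of_mem hb)))

/-- roots of polynomials with integral coefficients and unit constant term are units -/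
theorem na_root {K : Type*} [Field K] {f : AbsoluteValue K ℝ} (h : IsNonarchimedean f)
    (n : ℕ) (a : ℕ → K) (x : K) (hn : a n = 1) (h0 : f (a 0) = 1) (hn0 : n ≠ 0)
    (ha : ∀ i, f (a i) ≤ 1) (hsum : ∑ i ∈ Finset.range (n + 1), a i * x ^ i = 0) : f x = 1 := by
  refine le_antisymm ?_ ?_
  · by_contra hcon
    push Not at hcon
    rw [Finset.sum_range_succ, hn, one_mul, add_comm, ← eq_neg_iff_add_eq_zero] at hsum
    have h1 : f x ^ n ≤ f x ^ (n - 1) := by
      rw [← map_pow, hsum, f.map_neg]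
      refine na_sum_le h _ _ (pow_nonneg (f.nonneg _) _) fun i hi => ?_
      rw [map_mul, map_pow]
      refine (mul_le_of_le_one_left (pow_nonneg (f.nonneg _) _) (ha i)).trans ?_
      refine pow_le_pow_right₀ hcon.le ?_
      have := Finset.mem_range.1 hi
      omega
    have h2 : f x ^ (n - 1) < f x ^ n := pow_lt_pow_right₀ hcon (by omega)
    exact absurd h1 (not_le.2 h2)
  · by_contra hcon
    push Not at hcon
    rw [Finset.sum_range_succ', pow_zero, mul_one, add_comm, ← eq_neg_iff_add_eq_zero] at hsum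
    have h1 : f (a 0) ≤ f x := by
      rw [hsum, f.map_neg]
      refine na_sum_le h _ _ (f.nonneg _) fun i _ => ?_
      rw [map_mul, map_pow]
      refine (mul_le_of_le_one_left (pow_nonneg (f.nonneg _) _) (ha _)).trans ?_
      rw [pow_succ]
      exact mul_le_of_le_one_left (f.nonneg _) (pow_le_one₀ (f.nonneg _) hcon.le)
    rw [h0] at h1
    exact absurd h1 (not_le.2 hcon)

/-- the complex absolute value -/
def nvInf : AbsoluteValue Qbar ℝ :=
  (NormedField.toAbsoluteValue ℂ).comp
    (f := ((IsAlgClosed.lift : Qbar →ₐ[ℚ] ℂ) : Qbar →+* ℂ)) (RingHom.injective _)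

/-- the `p`-adic absolute value -/
def nvP (p : Nat.Primes) : AbsoluteValue Qbar ℝ :=
  haveI : Fact (p : ℕ).Prime := ⟨p.2⟩
  (NormedField.toAbsoluteValue (PadicAlgCl p)).comp
    (f := ((IsAlgClosed.lift : Qbar →ₐ[ℚ] PadicAlgCl p) : Qbar →+* PadicAlgCl p))
    (RingHom.injective _)

theorem nvInf_rat (q : ℚ) : nvInf (algebraMap ℚ Qbar q) = |(q : ℝ)| := by
  change ‖(IsAlgClosed.lift : Qbar →ₐ[ℚ] ℂ) (algebraMap ℚ Qbar q)‖ = _
  rw [AlgHom.commutes]
  simp

theorem nvP_rat (p : Nat.Primes) (q : ℚ) :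
    nvP p (algebraMap ℚ Qbar q) = ((padicNorm p q : ℚ) : ℝ) := by
  haveI : Fact (p : ℕ).Prime := ⟨p.2⟩
  change ‖(IsAlgClosed.lift : Qbar →ₐ[ℚ] PadicAlgCl p) (algebraMap ℚ Qbar q)‖ = _
  rw [AlgHom.commutes, eq_ratCast]
  have h1 : ((q : PadicAlgCl p)) = ((q : ℚ_[p]) : PadicAlgCl p) := by
    change _ = algebraMap ℚ_[p] (PadicAlgCl p) (q : ℚ_[p])
    rw [map_ratCast]
  rw [h1, PadicAlgCl.norm_extends]
  simp

theorem nvP_na (p : Nat.Primes) : IsNonarchimedean (nvP p) := by
  haveI : Fact (p : ℕ).Prime := ⟨p.2⟩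
  intro x y
  change ‖(IsAlgClosed.lift : Qbar →ₐ[ℚ] PadicAlgCl p) (x + y)‖ ≤ _
  rw [map_add]
  exact PadicAlgCl.isNonarchimedean p _ _

theorem padicNorm_fin (q : ℚ) (hq : q ≠ 0) :
    {p : Nat.Primes | padicNorm p q ≠ 1}.Finite := by
  have h1 : ({p : Nat.Primes | (p : ℕ) ∈ (q.num.natAbs * q.den).primeFactors}).Finite :=
    (Set.Finite.preimage (Set.injOn_of_injective Subtype.val_injective)
      (Finset.finite_toSet _))
  refine h1.subset fun p hp => ?_
  haveI : Fact (p : ℕ).Prime := ⟨p.2⟩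
  show (p : ℕ) ∈ (q.num.natAbs * q.den).primeFactors
  rw [Nat.mem_primeFactors]
  refine ⟨p.2, ?_, mul_ne_zero (by simpa using hq) q.den_ne_zero⟩
  by_contra hcon
  apply hp
  have h2 : ¬ (p : ℕ) ∣ q.num.natAbs := fun h => hcon (h.mul_right _)
  have h3 : ¬ (p : ℕ) ∣ q.den := fun h => hcon (h.mul_left _)
  show padicNorm p q = 1
  have h4 : padicNorm p (q.num : ℚ) = 1 := by
    rw [padicNorm.int_eq_one_iff]
    intro h
    exact h2 (Int.natCast_dvd.1 h)
  have h5 : padicNorm p (q.den : ℚ) = 1 := by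
    rw [padicNorm.nat_eq_one_iff]
    exact h3
  rw [← Rat.num_div_den q, padicNorm.div, h4, h5, div_one]

theorem nvP_triv {α : Qbar} (hα : α ≠ 0) : {p : Nat.Primes | nvP p α ≠ 1}.Finite := by
  classical
  set P := minpoly ℚ α with hP
  have hint : IsIntegral ℚ α := (Algebra.IsIntegral.isIntegral α)
  have hmonic := minpoly.monic hint
  have h0 : P.coeff 0 ≠ 0 := minpoly.coeff_zero_ne_zero hint hα
  have hfin : (⋃ i ∈ Finset.range (P.natDegree + 1), {p : Nat.Primes | P.coeff i ≠ 0 ∧
      padicNorm p (P.coeff i) ≠ 1}).Finite := by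
    refine Set.Finite.biUnion (Finset.finite_toSet _) fun i _ => ?_
    by_cases hi : P.coeff i = 0
    · simp [hi]
    · exact (padicNorm_fin _ hi).subset fun p hp => hp.2
  refine hfin.subset fun p hp => ?_
  by_contra hcon
  apply hp
  have h1 : ∀ i, P.coeff i ≠ 0 → padicNorm p (P.coeff i) = 1 := by
    intro i hi
    by_contra h2
    apply hcon
    simp only [Set.mem_iUnion]
    refine ⟨i, ?_, hi, h2⟩
    rw [Finset.mem_range, Nat.lt_succ_iff]
    exact Polynomial.le_natDegree_of_ne_zero hi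
  have h2 : ∀ i, P.coeff i ≠ 0 → nvP p (algebraMap ℚ Qbar (P.coeff i)) = 1 := fun i hi => by
    rw [nvP_rat, h1 i hi, Rat.cast_one]
  refine na_root (nvP_na p) P.natDegree (fun i => algebraMap ℚ Qbar (P.coeff i)) α ?_ (h2 0 h0)
    ?_ (fun i => ?_) ?_
  · rw [hmonic.coeff_natDegree, map_one]
  · exact (minpoly.natDegree_pos hint).ne'
  · by_cases hi : P.coeff i = 0
    · simp [hi]
    · exact (h2 i hi).le
  · have h3 := minpoly.aeval ℚ α
    rw [Polynomial.aeval_eq_sum_range] at h3
    simp only [Algebra.smul_def] at h3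
    exact h3

/-- the absolute values of `Qbar` above the places of `ℚ` -/
def qavBar : MWS.QAV Qbar where
  nv v := match v with
    | none => nvInf
    | some p => nvP p
  inf q := nvInf_rat q
  fin p q := nvP_rat p q
  na p := nvP_na p
  triv α hα := by
    refine ((Set.finite_singleton none).union ((nvP_triv hα).image some)).subset fun v hv => ?_
    match v, hv with
    | none, _ => exact Or.inl rfl
    | some p, hv => exact Or.inr ⟨p, hv, rfl⟩

/-- the same family in the format of `AVFam` -/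
def avBar : AVFam Qbar (Option Nat.Primes) where
  nv := qavBar.nv
  fin := qavBar.triv
  nonarch := (Set.finite_singleton none).subset fun v hv => by
    match v, hv with
    | none, _ => rfl
    | some p, hv => exact absurd (qavBar.na p) hv

theorem avBar_inf (q : ℚ) : avBar.nv none (q : Qbar) = |(q : ℝ)| := by
  have := qavBar.inf q
  rwa [eq_ratCast] at this

theorem avBar_p (p : Nat.Primes) (q : ℚ) :
    avBar.nv (some p) (q : Qbar) = ((padicNorm p q : ℚ) : ℝ) := by
  have := qavBar.fin p q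
  rwa [eq_ratCast] at this

/-- product formula -/
theorem avBar_sum {q : ℚ} (hq : q ≠ 0) : ∑ᶠ v, Real.log (avBar.nv v (q : Qbar)) = 0 := by
  have := qavBar.sum_rat hq
  rw [eq_ratCast] at this
  exact this

end Fermat.Agent.MWH
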