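import Fermat.Agent.MWH.Val

/-!
# Bounds for integral functions, coefficients of products
-/

set_option autoImplicit false
set_option linter.unusedSectionVars false

noncomputable section

namespace Fermat.Agent.MWH

open AlgebraicCurve Fermat.Agent.Curves Fermat.Agent.PicFlat Polynomial

variable {K F ι : Type*} [Field K] [IsAlgClosed K] [Field F] [Algebra K F] [IsFunctionField K F]

theorem value_one (P : Place K F) : value P (1 : F) = 1 := by
  have := value_algebraMap P (1 : K)
  rwa [map_one] at this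

theorem value_pow (P : Place K F) {g : F} (hg : g ∈ P.toValuationSubring) (n : ℕ) :
    value P (g ^ n) = value P g ^ n := by
  induction n with
  | zero => rw [pow_zero, pow_zero, value_one]
  | succ n ih => rw [pow_succ, pow_succ, value_mul P (pow_mem hg n) hg, ih]

theorem aeval_mem (P : Place K F) {t : F} (ht : t ∈ P.toValuationSubring) (q : K[X]) :
    aeval t q ∈ P.toValuationSubring := by
  rw [aeval_eq_sum_range]
  refine sum_mem fun i _ => ?_
  rw [Algebra.smul_def]
  exact mul_mem (P.algebraMap_mem' _) (pow_mem ht _)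

theorem value_aeval (P : Place K F) {t : F} (ht : t ∈ P.toValuationSubring) (q : K[X]) :
    value P (aeval t q) = q.eval (value P t) := by
  rw [aeval_eq_sum_range, eval_eq_sum_range, Emb.value_sum _ _ fun i _ => ?_]
  · exact Finset.sum_congr rfl fun i _ => by
      rw [Emb.value_smul P _ (pow_mem ht _), value_pow P ht]
  · rw [Algebra.smul_def]
    exact mul_mem (P.algebraMap_mem' _) (pow_mem ht _)

variable (A : AVFam K ι)

/-- polynomials are bounded on bounded sets -/
theorem AVFam.exists_eval (q : K[X]) {B : ι → ℝ} (hB : MC B) : ∃ C, MC C ∧ ∀ v (x : K),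
    A.nv v x ≤ B v → A.nv v (q.eval x) ≤ C v := by
  obtain ⟨C, hC, h⟩ := A.exists_bd (Finset.range (q.natDegree + 1)) (fun i => q.coeff i)
  refine ⟨fun v => A.cst (q.natDegree + 1) v * (C v * B v ^ q.natDegree),
    (A.mc_cst _).mul (hC.mul (hB.pow _)), fun v x hx => ?_⟩
  rw [eval_eq_sum_range]
  have h1 := A.sum_le (Finset.range (q.natDegree + 1)) (fun i => q.coeff i * x ^ i) v
    (M := C v * B v ^ q.natDegree)
    (mul_nonneg (hC.nonneg v) (pow_nonneg (hB.nonneg v) _)) fun i hi => ?_
  · rwa [Finset.card_range] at h1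
  rw [map_mul, map_pow]
  refine mul_le_mul (h v i hi) ?_ (pow_nonneg ((A.nv v).nonneg _) _) (hC.nonneg v)
  refine (pow_le_pow_left₀ ((A.nv v).nonneg _) hx i).trans ?_
  exact pow_le_pow_right₀ (hB.one_le v) (Nat.lt_succ_iff.1 (Finset.mem_range.1 hi))

/-- **integral functions are bounded on bounded sets** -/
theorem AVFam.exists_int {t g : F} (hg : g ∈ affineRing K t) {B : ι → ℝ} (hB : MC B) :
    ∃ C, MC C ∧ ∀ v (P : Place K F), t ∈ P.toValuationSubring → A.nv v (value P t) ≤ B v →
      A.nv v (value P g) ≤ C v := by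
  rw [mem_affineRing_iff_isIntegral] at hg
  obtain ⟨p, hp, hpg⟩ := hg
  set n := p.natDegree with hn
  have hq : ∀ i, ∃ q : K[X], aeval t q = ((p.coeff i : Algebra.adjoin K {t}) : F) := fun i => by
    obtain ⟨q, hq⟩ := (Algebra.adjoin_singleton_eq_range_aeval K t).le (p.coeff i).2
    exact ⟨q, hq⟩
  choose q hq using hq
  have h1 : ∀ i ∈ Finset.range n, ∃ C, MC C ∧ ∀ v (x : K),
    A.nv v x ≤ B v → A.nv v ((q i).eval x) ≤ C v := fun i _ => A.exists_eval (q i) hB
  obtain ⟨C, hC, h⟩ := exists_mc_finset (ι := ι) (X := K) (Finset.range n)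
    (fun i v x C => A.nv v x ≤ B v → A.nv v ((q i).eval x) ≤ C)
    (fun i v x C C' h h' hx => (h' hx).trans h) h1
  refine ⟨fun v => A.cst n v * C v, (A.mc_cst _).mul hC, fun v P ht hP => ?_⟩
  have hC1 : 1 ≤ A.cst n v * C v := ((A.mc_cst n).mul hC).one_le v
  -- regularity of g
  have hgm : g ∈ P.toValuationSubring := by
    have h3 : g ∈ affineRing K t := mem_affineRing_iff_isIntegral.2 ⟨p, hp, hpg⟩
    exact h3 P ht
  set y := value P g with hy
  rcases Nat.eq_zero_or_pos n with hn0 | hn0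
  · exfalso
    have hp1 : p = 1 := hp.natDegree_eq_zero.mp (hn ▸ hn0)
    rw [hp1, eval₂_one] at hpg
    exact one_ne_zero hpg
  have h2 : y ^ n = - ∑ i ∈ Finset.range n, (q i).eval (value P t) * y ^ i := by
    have h3 := congrArg (value P) hpg
    rw [eval₂_eq_sum_range, Finset.sum_range_succ, ← hn] at h3
    have hc : p.coeff n = 1 := hp.coeff_natDegree
    rw [hc, map_one, one_mul] at h3
    have hm : ∀ i, (algebraMap (Algebra.adjoin K {t}) F) (p.coeff i) = aeval t (q i) := fun i => by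
      rw [hq i]; rfl
    have hmem : ∀ i ∈ Finset.range n,
        (algebraMap (Algebra.adjoin K {t}) F) (p.coeff i) * g ^ i ∈ P.toValuationSubring :=
      fun i _ => by
        rw [hm i]
        exact mul_mem (aeval_mem P ht _) (pow_mem hgm i)
    rw [value_add P (sum_mem hmem) (pow_mem hgm n), Emb.value_sum _ _ hmem, value_pow P hgm] at h3
    have h4 : value P (0 : F) = 0 := by
      rw [value_eq_zero_iff P (zero_mem _)]
      simp
    rw [h4] at h3
    rw [eq_neg_iff_add_eq_zero, add_comm, ← h3]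
    congr 1
    refine Finset.sum_congr rfl fun i _ => ?_
    rw [hm i, value_mul P (aeval_mem P ht _) (pow_mem hgm i), value_aeval P ht,
      value_pow P hgm]
  by_contra hcon
  push Not at hcon
  have hy1 : 1 ≤ A.nv v y := hC1.trans hcon.le
  have h5 : A.nv v y ^ n ≤ A.cst n v * (C v * A.nv v y ^ (n - 1)) := by
    rw [← map_pow, h2, (A.nv v).map_neg]
    have h6 := A.sum_le (Finset.range n) (fun i => (q i).eval (value P t) * y ^ i) v
      (M := C v * A.nv v y ^ (n - 1))
      (mul_nonneg (hC.nonneg v) (pow_nonneg ((A.nv v).nonneg _) _)) fun i hi => ?_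
    · rwa [Finset.card_range] at h6
    rw [map_mul, map_pow]
    refine mul_le_mul (h v i hi _ hP) ?_ (pow_nonneg ((A.nv v).nonneg _) _) (hC.nonneg v)
    refine pow_le_pow_right₀ hy1 ?_
    have := Finset.mem_range.1 hi
    omega
  have h7 : A.nv v y ^ n = A.nv v y * A.nv v y ^ (n - 1) := by
    rw [← pow_succ']
    congr 1
    omega
  rw [h7, ← mul_assoc] at h5
  have h8 : 0 < A.nv v y ^ (n - 1) := pow_pos (lt_of_lt_of_le one_pos hy1) _
  exact absurd (le_of_mul_le_mul_right h5 h8) (not_le.2 hcon)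

/-- coefficients of products of linear factors -/
theorem AVFam.coeff_mul_linear {v : ι} {R B : ℝ} (hR : 0 ≤ R) (hB : 1 ≤ B) {p : K[X]} {τ : K}
    (hp : ∀ i, A.nv v (p.coeff i) ≤ R) (hτ : A.nv v τ ≤ B) (i : ℕ) :
    A.nv v ((p * (X - C τ)).coeff i) ≤ A.cst 2 v * B * R := by
  have h0 : ∀ j, A.nv v (p.coeff j * τ) ≤ B * R := fun j => by
    rw [map_mul, mul_comm B R]
    exact mul_le_mul (hp j) hτ ((A.nv v).nonneg _) hR
  have h1 : ∀ j, A.nv v (p.coeff j) ≤ B * R := fun j =>
    (hp j).trans (le_mul_of_one_le_left hR hB)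
  have hBR : 0 ≤ B * R := mul_nonneg (zero_le_one.trans hB) hR
  have hone : 1 ≤ A.cst 2 v := (A.mc_cst 2).one_le v
  rw [mul_assoc]
  cases i with
  | zero =>
    rw [mul_sub, coeff_sub, mul_coeff_zero, coeff_X_zero, mul_zero, zero_sub, coeff_mul_C,
      (A.nv v).map_neg]
    exact (h0 0).trans (le_mul_of_one_le_left hBR hone)
  | succ i =>
    rw [mul_sub, coeff_sub, coeff_mul_X, coeff_mul_C]
    have h2 := A.sum_le' (α := Fin 2) ![p.coeff i, -(p.coeff (i + 1) * τ)] v hBR (by
      intro a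
      fin_cases a
      · exact h1 i
      · simp only [Fin.mk_one, Matrix.cons_val_one, Matrix.cons_val_fin_one]
        rw [(A.nv v).map_neg]
        exact h0 _)
    simpa [Fin.sum_univ_two, sub_eq_add_neg] using h2

theorem AVFam.coeff_mul_linear_pow {v : ι} {R B : ℝ} (hR : 0 ≤ R) (hB : 1 ≤ B) {p : K[X]} {τ : K}
    (hp : ∀ i, A.nv v (p.coeff i) ≤ R) (hτ : A.nv v τ ≤ B) (n : ℕ) (i : ℕ) :
    A.nv v ((p * (X - C τ) ^ n).coeff i) ≤ (A.cst 2 v * B) ^ n * R := by
  have hc : 0 ≤ A.cst 2 v * B := mul_nonneg ((A.mc_cst 2).nonneg v) (zero_le_one.trans hB)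
  induction n generalizing i with
  | zero => simpa using hp i
  | succ n ih =>
    rw [pow_succ, ← mul_assoc]
    refine (A.coeff_mul_linear (mul_nonneg (pow_nonneg hc n) hR) hB ih hτ i).trans (le_of_eq ?_)
    ring

theorem AVFam.coeff_prod_le {α : Type*} {v : ι} {B : ℝ} (hB : 1 ≤ B) (s : Finset α) (τ : α → K)
    (n : α → ℕ) (hτ : ∀ a ∈ s, A.nv v (τ a) ≤ B) (i : ℕ) :
    A.nv v ((∏ a ∈ s, (X - C (τ a)) ^ n a).coeff i) ≤ (A.cst 2 v * B) ^ (∑ a ∈ s, n a) := by
  classical
  have hc : 0 ≤ A.cst 2 v * B := mul_nonneg ((A.mc_cst 2).nonneg v) (zero_le_one.trans hB)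
  induction s using Finset.induction_on generalizing i with
  | empty =>
    simp only [Finset.prod_empty, Finset.sum_empty, pow_zero, coeff_one]
    split_ifs <;> simp
  | insert a s ha ih =>
    rw [Finset.prod_insert ha, Finset.sum_insert ha, mul_comm, pow_add]
    exact A.coeff_mul_linear_pow (pow_nonneg hc _) hB
      (ih fun b hb => hτ b (Finset.mem_insert_of_mem hb)) (hτ a (Finset.mem_insert_self a s)) _ i

end Fermat.Agent.MWH
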