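import Fermat.Agent.MWH.Span
import Fermat.Agent.MWH.Int
import Fermat.Agent.MWG.Setup
import Fermat.Agent.MWS.Slater

/-!
# [CMP]: comparison of an embedding with its multiples
-/

set_option autoImplicit false
set_option linter.unusedSectionVars false
set_option linter.style.haveILetI false

noncomputable section

namespace Fermat.Agent.MWH

open AlgebraicCurve Fermat.Agent.Curves Fermat.Agent.PicFlat Fermat.Agent.MWG

variable {K F ι : Type*} [Field K] [IsAlgClosed K] [Field F] [Algebra K F] [IsFunctionField K F]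

theorem value_prod {α : Type*} (s : Finset α) (P : Place K F) {x : α → F}
    (hx : ∀ i ∈ s, x i ∈ P.toValuationSubring) :
    value P (∏ i ∈ s, x i) = ∏ i ∈ s, value P (x i) := by
  classical
  induction s using Finset.induction_on with
  | empty =>
    simp only [Finset.prod_empty]
    exact value_one P
  | insert a s ha ih =>
    rw [Finset.prod_insert ha, Finset.prod_insert ha, value_mul P
      (hx a (Finset.mem_insert_self a s)) (prod_mem fun b hb => hx b (Finset.mem_insert_of_mem hb)),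
      ih fun b hb => hx b (Finset.mem_insert_of_mem hb)]

namespace Emb

variable (E₀ E : Emb K F)

/-- the monomials in the coordinates -/
def mon {k : ℕ} (P : Place K F) (s : Fin k → Fin (E₀.r + 1)) : K := ∏ j, E₀.x P (s j)

open Classical in
/-- the scaling factor at infinity -/
def eps (k : ℕ) (P : Place K F) : K :=
  if P = E.inf then value E.inf (E.f (Fin.last E.r) / E₀.f (Fin.last E₀.r) ^ k) else 1

variable {E₀ E} {k : ℕ} (hinf : E.inf = E₀.inf) (hm : E.m = k * E₀.m)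

theorem G_single (i : Fin (E.r + 1)) : E.G (Pi.single i 1) = E.f i := by
  classical
  rw [G, Finset.sum_eq_single i]
  · simp
  · intro j _ hj
    rw [Pi.single_eq_of_ne hj, zero_smul]
  · intro h
    exact absurd (Finset.mem_univ _) h

theorem x_inf_last : E.x E.inf (Fin.last E.r) = 1 := by
  rw [x, if_pos rfl, if_pos rfl]

theorem ratio_inf (i : Fin (E.r + 1)) :
    E.f i / E.f (Fin.last E.r) ∈ E.inf.toValuationSubring ∧
    value E.inf (E.f i / E.f (Fin.last E.r)) = E.x E.inf i := by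
  have h : E.dot (Pi.single (Fin.last E.r) 1) E.inf ≠ 0 := by
    rw [← x_eq_dot, x_inf_last]
    exact one_ne_zero
  have h1 := ratio_mem (Pi.single i 1) h
  have h2 := value_ratio (Pi.single i 1) h
  rw [G_single, G_single] at h1 h2
  rw [← x_eq_dot, ← x_eq_dot, x_inf_last, div_one] at h2
  exact ⟨h1, h2⟩

include hinf hm in
theorem last_div : E.f (Fin.last E.r) / E₀.f (Fin.last E₀.r) ^ k ≠ 0 ∧
    E.inf.ord (E.f (Fin.last E.r) / E₀.f (Fin.last E₀.r) ^ k) = 0 := by
  have h1 : E.f (Fin.last E.r) ≠ 0 := E.li.ne_zero _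
  have h2 : E₀.f (Fin.last E₀.r) ≠ 0 := E₀.li.ne_zero _
  refine ⟨div_ne_zero h1 (pow_ne_zero _ h2), ?_⟩
  rw [ord_div _ h1 (pow_ne_zero _ h2), ord_pow, E.ord_last, hinf, E₀.ord_last, hm]
  push_cast
  ring

include hinf hm in
theorem eps_ne (P : Place K F) : eps E₀ E k P ≠ 0 := by
  rw [eps]
  split_ifs with h
  · have h1 := last_div (E₀ := E₀) (E := E) hinf hm
    intro h2
    rw [value_eq_zero_iff _ ((mem_iff_ord _ h1.1).2 h1.2.ge), val_lt_one_iff,
      or_iff_right h1.1, h1.2] at h2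
    exact lt_irrefl _ h2
  · exact one_ne_zero

include hinf hm in
/-- evaluation of a section written as a polynomial in the sections of `E₀` -/
theorem eps_dot (c : Fin (E.r + 1) → K) (γ : (Fin k → Fin (E₀.r + 1)) → K)
    (h : E.G c = ∑ s, γ s • E₀.pf s) (P : Place K F) :
    eps E₀ E k P * E.dot c P = ∑ s, γ s * mon E₀ P s := by
  by_cases hP : P = E.inf
  · subst hP
    have hb : E₀.f (Fin.last E₀.r) ^ k ≠ 0 := pow_ne_zero _ (E₀.li.ne_zero _)
    have hl := last_div (E₀ := E₀) (E := E) hinf hm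
    have h1 : E.dot (Pi.single (Fin.last E.r) 1) E.inf ≠ 0 := by
      rw [← x_eq_dot, x_inf_last]
      exact one_ne_zero
    have h2 := ratio_mem c h1
    have h3 := value_ratio c h1
    rw [G_single] at h2 h3
    rw [← x_eq_dot, x_inf_last, div_one] at h3
    rw [eps, if_pos rfl, ← h3, ← value_mul _ ((mem_iff_ord _ hl.1).2 hl.2.ge) h2]
    have h4 : E.f (Fin.last E.r) / E₀.f (Fin.last E₀.r) ^ k * (E.G c / E.f (Fin.last E.r)) =
        ∑ s, γ s • ∏ j, (E₀.f (s j) / E₀.f (Fin.last E₀.r)) := by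
      have h5 : E.f (Fin.last E.r) ≠ 0 := E.li.ne_zero _
      have h6 : E.f (Fin.last E.r) / E₀.f (Fin.last E₀.r) ^ k * (E.G c / E.f (Fin.last E.r)) =
          E.G c / E₀.f (Fin.last E₀.r) ^ k := by field_simp
      rw [h6, h, Finset.sum_div]
      refine Finset.sum_congr rfl fun s _ => ?_
      rw [smul_div_assoc, pf, Finset.prod_div_distrib, Finset.prod_const, Finset.card_univ,
        Fintype.card_fin]
    have hmem : ∀ s : Fin k → Fin (E₀.r + 1), ∏ j, (E₀.f (s j) / E₀.f (Fin.last E₀.r)) ∈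
        E.inf.toValuationSubring := fun s => by
      rw [hinf]
      exact prod_mem fun j _ => (ratio_inf (s j)).1
    rw [h4, value_sum _ _ fun s _ => ?_]
    · refine Finset.sum_congr rfl fun s _ => ?_
      rw [value_smul _ _ (hmem s), hinf, value_prod _ _ fun j _ => (ratio_inf (s j)).1, mon]
      congr 1
      exact Finset.prod_congr rfl fun j _ => (ratio_inf (s j)).2
    · rw [Algebra.smul_def]
      exact mul_mem (E.inf.algebraMap_mem' _) (hmem s)
  · have hP0 : P ≠ E₀.inf := fun h => hP (h.trans hinf.symm)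
    have hmem : ∀ s : Fin k → Fin (E₀.r + 1), E₀.pf s ∈ P.toValuationSubring := fun s =>
      prod_mem fun j _ => regular (E₀.f_mem (s j)) hP0
    rw [eps, if_neg hP, one_mul, dot_eq_value c hP, h, value_sum _ _ fun s _ => ?_]
    · refine Finset.sum_congr rfl fun s _ => ?_
      rw [value_smul _ _ (hmem s), pf, value_prod _ _ fun j _ => regular (E₀.f_mem (s j)) hP0, mon]
      congr 1
      refine Finset.prod_congr rfl fun j _ => ?_
      rw [x, if_neg hP0]
    · rw [Algebra.smul_def]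
      exact mul_mem (P.algebraMap_mem' _) (hmem s)

end Emb

section Cmp

variable {E₀ E : Emb K F} {k : ℕ} (A : AVFam K ι)

theorem mon_le (v : ι) (P : Place K F) (s : Fin k → Fin (E₀.r + 1)) :
    A.nv v (Emb.mon E₀ P s) ≤ E₀.nx A v P ^ k := by
  rw [Emb.mon, map_prod]
  refine (Finset.prod_le_prod (fun j _ => (A.nv v).nonneg _)
    fun j _ => AVFam.le_nrm v (E₀.x P) (s j)).trans (le_of_eq ?_)
  rw [Finset.prod_const, Finset.card_univ, Fintype.card_fin]
  rfl

theorem eps_bd (E₀ E : Emb K F) (k : ℕ) (hne : ∀ P, Emb.eps E₀ E k P ≠ 0) :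
    ∃ C, MC C ∧ ∀ v P, A.nv v (Emb.eps E₀ E k P) ≤ C v ∧ 1 ≤ C v * A.nv v (Emb.eps E₀ E k P) := by
  set μ := Emb.eps E₀ E k E.inf with hμ
  refine ⟨fun v => A.bd μ v * A.bd μ⁻¹ v, (A.mc_bd μ).mul (A.mc_bd μ⁻¹), fun v P => ?_⟩
  have h1 : 1 ≤ A.bd μ v := (A.mc_bd μ).one_le v
  have h2 : 1 ≤ A.bd μ⁻¹ v := (A.mc_bd μ⁻¹).one_le v
  by_cases hP : P = E.inf
  · subst hP
    rw [← hμ]
    have hμ0 : 0 < A.nv v μ := (A.nv v).pos (hne _)
    refine ⟨(A.le_bd μ v).trans (le_mul_of_one_le_right (by linarith) h2), ?_⟩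
    have h3 := A.le_bd μ⁻¹ v
    rw [map_inv₀] at h3
    have h4 : (1 : ℝ) = (A.nv v μ)⁻¹ * A.nv v μ := (inv_mul_cancel₀ hμ0.ne').symm
    calc (1 : ℝ) = (A.nv v μ)⁻¹ * A.nv v μ := h4
      _ ≤ A.bd μ⁻¹ v * A.nv v μ := mul_le_mul_of_nonneg_right h3 hμ0.le
      _ ≤ A.bd μ v * A.bd μ⁻¹ v * A.nv v μ := mul_le_mul_of_nonneg_right
          (le_mul_of_one_le_left (by linarith) h1) hμ0.le
  · have h3 : Emb.eps E₀ E k P = 1 := by rw [Emb.eps, if_neg hP]
    rw [h3, map_one, mul_one]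
    exact ⟨one_le_mul_of_one_le_of_one_le h1 h2, one_le_mul_of_one_le_of_one_le h1 h2⟩

variable (hinf : E.inf = E₀.inf) (hm : E.m = k * E₀.m)

include hinf hm in
/-- **products of linear forms are sections of the multiple** -/
theorem exists_prod_form : ∃ C, MC C ∧ ∀ v (h : Fin k → Fin (E₀.r + 1) → K),
    ∃ c : Fin (E.r + 1) → K, (∀ P, Emb.eps E₀ E k P * E.dot c P = ∏ j, E₀.dot (h j) P) ∧
      A.nrm v c ≤ C v * ∏ j, A.nrm v (h j) := by
  classical
  have hN : ∀ s : Fin k → Fin (E₀.r + 1), ∃ c : Fin (E.r + 1) → K, E.G c = E₀.pf s := fun s => by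
    apply E.exists_G
    have := E₀.pf_mem s
    rw [Ln, ← hinf] at this
    rw [hm]
    push_cast
    exact this
  choose N hN using hN
  obtain ⟨C, hC, hC'⟩ := A.exists_bd (Finset.univ : Finset ((Fin k → Fin (E₀.r + 1)) ×
    Fin (E.r + 1))) (fun x => N x.1 x.2)
  refine ⟨fun v => A.cst (Fintype.card (Fin k → Fin (E₀.r + 1))) v * C v, (A.mc_cst _).mul hC,
    fun v h => ?_⟩
  set γ : (Fin k → Fin (E₀.r + 1)) → K := fun s => ∏ j, h j (s j) with hγ
  have hγb : ∀ s, A.nv v (γ s) ≤ ∏ j, A.nrm v (h j) := fun s => by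
    rw [hγ]
    simp only [map_prod]
    exact Finset.prod_le_prod (fun j _ => (A.nv v).nonneg _) fun j _ => AVFam.le_nrm v (h j) (s j)
  have hpn : 0 ≤ ∏ j, A.nrm v (h j) := Finset.prod_nonneg fun j _ => AVFam.nrm_nonneg v _
  refine ⟨fun i => ∑ s, γ s * N s i, fun P => ?_, ?_⟩
  · have h1 : E.G (fun i => ∑ s, γ s * N s i) = ∑ s, γ s • E₀.pf s := by
      rw [Emb.G]
      simp only [Finset.sum_smul]
      rw [Finset.sum_comm]
      refine Finset.sum_congr rfl fun s _ => ?_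
      rw [← hN s, Emb.G, Finset.smul_sum]
      exact Finset.sum_congr rfl fun i _ => by rw [smul_smul]
    rw [Emb.eps_dot hinf hm _ γ h1 P]
    simp only [Emb.dot]
    rw [Finset.prod_univ_sum]
    simp only [Fintype.piFinset_univ]
    refine Finset.sum_congr rfl fun s _ => ?_
    rw [hγ, Emb.mon, ← Finset.prod_mul_distrib]
  · refine AVFam.nrm_le fun i => ?_
    rw [mul_assoc]
    refine A.sum_le' _ v (mul_nonneg (hC.nonneg v) hpn) fun s => ?_
    rw [map_mul, mul_comm]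
    exact mul_le_mul (hC' v (s, i) (Finset.mem_univ _)) (hγb s) ((A.nv v).nonneg _) (hC.nonneg v)

/-- minors of monomials -/
theorem mon_minor (v : ι) (P Q : Place K F) (s s' : Fin k → Fin (E₀.r + 1)) :
    A.nv v (Emb.mon E₀ P s * Emb.mon E₀ Q s' - Emb.mon E₀ P s' * Emb.mon E₀ Q s) ≤
      A.cst 2 v ^ k * (E₀.dl A v P Q * (E₀.nx A v P * E₀.nx A v Q) ^ k) := by
  have hnP := Emb.nx_pos (E := E₀) A v P
  have hnQ := Emb.nx_pos (E := E₀) A v Q
  have hd := Emb.dl_nonneg (E := E₀) A v P Q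
  have hc1 := (A.mc_cst 2).one_le v
  induction k with
  | zero =>
    simp only [Emb.mon, Finset.univ_eq_empty, Finset.prod_empty, mul_one, sub_self, map_zero,
      pow_zero, one_mul]
    exact hd
  | succ k ih =>
    have e : ∀ (R : Place K F) (u : Fin (k + 1) → Fin (E₀.r + 1)),
        Emb.mon E₀ R u = E₀.x R (u 0) * Emb.mon E₀ R (fun j => u j.succ) := fun R u =>
      Fin.prod_univ_succ _
    rw [e P s, e Q s', e P s', e Q s]
    set a := E₀.x P (s 0)
    set b' := E₀.x Q (s' 0)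
    set a' := E₀.x P (s' 0)
    set b := E₀.x Q (s 0)
    set X := Emb.mon E₀ P (fun j => s j.succ)
    set Y' := Emb.mon E₀ Q (fun j => s' j.succ)
    set X' := Emb.mon E₀ P (fun j => s' j.succ)
    set Y := Emb.mon E₀ Q (fun j => s j.succ)
    have h1 : a * X * (b' * Y') - a' * X' * (b * Y) =
        (a * b' - a' * b) * (X * Y') + (a' * b) * (X * Y' - X' * Y) := by ring
    have h2 : A.nv v (a * b' - a' * b) ≤ E₀.dl A v P Q * (E₀.nx A v P * E₀.nx A v Q) := by
      rw [Emb.dl, div_mul_cancel₀ _ (mul_pos hnP hnQ).ne']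
      exact le_ciSup (f := fun ij : Fin (E₀.r + 1) × Fin (E₀.r + 1) =>
        A.nv v (E₀.x P ij.1 * E₀.x Q ij.2 - E₀.x P ij.2 * E₀.x Q ij.1))
        (Set.finite_range _).bddAbove (s 0, s' 0)
    have h3 : A.nv v (X * Y') ≤ (E₀.nx A v P * E₀.nx A v Q) ^ k := by
      rw [map_mul, mul_pow]
      exact mul_le_mul (mon_le A v P _) (mon_le A v Q _) ((A.nv v).nonneg _)
        (pow_nonneg hnP.le _)
    have h4 : A.nv v (a' * b) ≤ E₀.nx A v P * E₀.nx A v Q := by
      rw [map_mul]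
      exact mul_le_mul (AVFam.le_nrm v (E₀.x P) _) (AVFam.le_nrm v (E₀.x Q) _)
        ((A.nv v).nonneg _) hnP.le
    have h5 := ih (fun j => s j.succ) (fun j => s' j.succ)
    have hM : 0 ≤ A.cst 2 v ^ k * (E₀.dl A v P Q * (E₀.nx A v P * E₀.nx A v Q) ^ (k + 1)) := by
      have := mul_pos hnP hnQ
      have := (A.mc_cst 2).pos v
      positivity
    have h6 := A.sum_le' (α := Fin 2) ![(a * b' - a' * b) * (X * Y'),
      (a' * b) * (X * Y' - X' * Y)] v hM (by
      intro i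
      fin_cases i
      · simp only [Fin.zero_eta, Matrix.cons_val_zero]
        rw [map_mul]
        calc _ ≤ (E₀.dl A v P Q * (E₀.nx A v P * E₀.nx A v Q)) *
            (E₀.nx A v P * E₀.nx A v Q) ^ k := mul_le_mul h2 h3 ((A.nv v).nonneg _)
              (mul_nonneg hd (mul_pos hnP hnQ).le)
          _ = E₀.dl A v P Q * (E₀.nx A v P * E₀.nx A v Q) ^ (k + 1) := by ring
          _ ≤ _ := le_mul_of_one_le_left (mul_nonneg hd (pow_nonneg (mul_pos hnP hnQ).le _))
              (one_le_pow₀ hc1)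
      · simp only [Fin.mk_one, Matrix.cons_val_one, Matrix.cons_val_fin_one]
        rw [map_mul]
        calc _ ≤ (E₀.nx A v P * E₀.nx A v Q) *
            (A.cst 2 v ^ k * (E₀.dl A v P Q * (E₀.nx A v P * E₀.nx A v Q) ^ k)) :=
              mul_le_mul h4 h5 ((A.nv v).nonneg _) (mul_pos hnP hnQ).le
          _ = _ := by ring)
    rw [h1]
    rw [Fin.sum_univ_two, Fintype.card_fin] at h6
    simp only [Matrix.cons_val_zero, Matrix.cons_val_one, Matrix.cons_val_fin_one] at h6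
    refine h6.trans (le_of_eq ?_)
    ring

include hinf hm in
theorem cmp (hk : 1 ≤ k) (h2 : 2 * E₀.c + 2 ≤ E₀.m) : Cmp E₀ E k A := by
  classical
  have hne : ∀ P, Emb.eps E₀ E k P ≠ 0 := fun P => Emb.eps_ne hinf hm P
  obtain ⟨Ce, hCe, he⟩ := eps_bd A E₀ E k hne
  obtain ⟨Cp, hCp, hp⟩ := exists_prod_form A hinf hm
  obtain ⟨Cd, hCd, hd⟩ := Emb.dot_le (E := E) A
  have hM : ∀ i : Fin (E.r + 1), ∃ γ : (Fin k → Fin (E₀.r + 1)) → K,
      ∑ s, γ s • E₀.pf s = E.f i := fun i => by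
    have h1 : E.f i ∈ Ln K E₀.inf (k * (E₀.m : ℤ)) := by
      have := E.f_mem i
      rw [hm, hinf] at this
      push_cast at this
      exact this
    exact (Submodule.mem_span_range_iff_exists_fun K).1 (E₀.span_pf h2 hk h1)
  choose M hM using hM
  obtain ⟨CM, hCM, hM'⟩ := A.exists_bd (Finset.univ : Finset (Fin (E.r + 1) ×
    (Fin k → Fin (E₀.r + 1)))) (fun x => M x.1 x.2)
  set n := Fintype.card (Fin k → Fin (E₀.r + 1)) with hn
  have hx : ∀ P i, Emb.eps E₀ E k P * E.x P i = ∑ s, M i s * Emb.mon E₀ P s := fun P i => by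
    rw [Emb.x_eq_dot]
    exact Emb.eps_dot hinf hm _ (M i) (by rw [Emb.G_single]; exact (hM i).symm) P
  -- upper bound for nx
  have hnx : ∀ v P, E.nx A v P ≤ Ce v * (A.cst n v * CM v) * E₀.nx A v P ^ k := fun v P => by
    refine AVFam.nrm_le fun i => ?_
    have h3 : A.nv v (Emb.eps E₀ E k P * E.x P i) ≤ A.cst n v * (CM v * E₀.nx A v P ^ k) := by
      rw [hx]
      refine A.sum_le' _ v (mul_nonneg (hCM.nonneg v) (pow_nonneg (Emb.nx_pos A v P).le _))
        fun s => ?_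
      rw [map_mul]
      exact mul_le_mul (hM' v (i, s) (Finset.mem_univ _)) (mon_le A v P s) ((A.nv v).nonneg _)
        (hCM.nonneg v)
    rw [map_mul] at h3
    have h4 := (he v P).2
    have h5 := (A.nv v).nonneg (E.x P i)
    calc A.nv v (E.x P i) ≤ (Ce v * A.nv v (Emb.eps E₀ E k P)) * A.nv v (E.x P i) :=
          le_mul_of_one_le_left h5 h4
      _ = Ce v * (A.nv v (Emb.eps E₀ E k P) * A.nv v (E.x P i)) := by ring
      _ ≤ Ce v * (A.cst n v * (CM v * E₀.nx A v P ^ k)) :=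
          mul_le_mul_of_nonneg_left h3 (hCe.nonneg v)
      _ = _ := by ring
  -- lower bound for nx
  have hnx' : ∀ v P, E₀.nx A v P ^ k ≤ Ce v * (Cd v * Cp v) * E.nx A v P := fun v P => by
    obtain ⟨b, hb⟩ := AVFam.exists_nrm (A := A) v (E₀.x P)
    obtain ⟨c, hc, hcn⟩ := hp v (fun _ => Pi.single b 1)
    have h3 := hc P
    simp only [← Emb.x_eq_dot, Finset.prod_const, Finset.card_univ, Fintype.card_fin] at h3
    have h4 := congrArg (A.nv v) h3
    rw [map_mul, map_pow, hb] at h4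
    change _ = E₀.nx A v P ^ k at h4
    rw [← h4]
    have h5 : ∏ _j : Fin k, A.nrm v (Pi.single b (1 : K) : Fin (E₀.r + 1) → K) ≤ 1 := by
      rw [Finset.prod_const]
      refine pow_le_one₀ (AVFam.nrm_nonneg v _) (AVFam.nrm_le fun i => ?_)
      rcases eq_or_ne i b with rfl | hi
      · simp
      · rw [Pi.single_eq_of_ne hi, map_zero]; exact zero_le_one
    have h6 : A.nrm v c ≤ Cp v := hcn.trans (mul_le_of_le_one_right (hCp.nonneg v) h5)
    have h7 : A.nv v (E.dot c P) ≤ Cd v * (Cp v * E.nx A v P) :=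
      (hd v c P).trans (mul_le_mul_of_nonneg_left (mul_le_mul_of_nonneg_right h6
        (Emb.nx_pos A v P).le) (hCd.nonneg v))
    calc A.nv v (Emb.eps E₀ E k P) * A.nv v (E.dot c P) ≤ Ce v * (Cd v * (Cp v * E.nx A v P)) :=
          mul_le_mul (he v P).1 h7 ((A.nv v).nonneg _) (hCe.nonneg v)
      _ = _ := by ring
  -- distances
  have hdl : ∀ v P Q, E.dl A v P Q ≤ (Ce v * Ce v * (A.cst n v * (A.cst n v * (CM v * CM v *
      A.cst 2 v ^ k)))) * (Ce v * (Cd v * Cp v)) ^ 2 * E₀.dl A v P Q := fun v P Q => by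
    have hnP := Emb.nx_pos (E := E) A v P
    have hnQ := Emb.nx_pos (E := E) A v Q
    have hnP0 := Emb.nx_pos (E := E₀) A v P
    have hnQ0 := Emb.nx_pos (E := E₀) A v Q
    have hd0 := Emb.dl_nonneg (E := E₀) A v P Q
    set W := E₀.dl A v P Q * (E₀.nx A v P * E₀.nx A v Q) ^ k with hW
    have hWn : 0 ≤ W := mul_nonneg hd0 (pow_nonneg (mul_pos hnP0 hnQ0).le _)
    rw [Emb.dl, div_le_iff₀ (mul_pos hnP hnQ)]
    have h3 : (⨆ ij : Fin (E.r + 1) × Fin (E.r + 1),
        A.nv v (E.x P ij.1 * E.x Q ij.2 - E.x P ij.2 * E.x Q ij.1)) ≤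
        Ce v * Ce v * (A.cst n v * (A.cst n v * (CM v * CM v * A.cst 2 v ^ k * W))) := by
      refine ciSup_le fun ij => ?_
      obtain ⟨i, j⟩ := ij
      simp only
      have h4 : Emb.eps E₀ E k P * Emb.eps E₀ E k Q * (E.x P i * E.x Q j - E.x P j * E.x Q i) =
          ∑ s, ∑ s', M i s * M j s' * (Emb.mon E₀ P s * Emb.mon E₀ Q s' -
            Emb.mon E₀ P s' * Emb.mon E₀ Q s) := by
        have h5 : Emb.eps E₀ E k P * Emb.eps E₀ E k Q * (E.x P i * E.x Q j - E.x P j * E.x Q i) =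
          (Emb.eps E₀ E k P * E.x P i) * (Emb.eps E₀ E k Q * E.x Q j) -
            (Emb.eps E₀ E k Q * E.x Q i) * (Emb.eps E₀ E k P * E.x P j) := by ring
        rw [h5, hx, hx, hx, hx, Finset.sum_mul_sum, Finset.sum_mul_sum, ← Finset.sum_sub_distrib]
        refine Finset.sum_congr rfl fun s _ => ?_
        rw [← Finset.sum_sub_distrib]
        refine Finset.sum_congr rfl fun s' _ => ?_
        ring
      have h6 : A.nv v (∑ s, ∑ s', M i s * M j s' * (Emb.mon E₀ P s * Emb.mon E₀ Q s' -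
            Emb.mon E₀ P s' * Emb.mon E₀ Q s)) ≤
          A.cst n v * (A.cst n v * (CM v * CM v * A.cst 2 v ^ k * W)) := by
        have hW0 : 0 ≤ CM v * CM v * A.cst 2 v ^ k * W := mul_nonneg (mul_nonneg (mul_nonneg
          (hCM.nonneg v) (hCM.nonneg v)) (pow_nonneg ((A.mc_cst 2).nonneg v) _)) hWn
        refine A.sum_le' _ v (mul_nonneg ((A.mc_cst n).nonneg v) hW0) fun s => ?_
        refine A.sum_le' _ v hW0 fun s' => ?_
        rw [map_mul, map_mul, mul_assoc (CM v * CM v)]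
        refine mul_le_mul (mul_le_mul (hM' v (i, s) (Finset.mem_univ _))
          (hM' v (j, s') (Finset.mem_univ _)) ((A.nv v).nonneg _) (hCM.nonneg v))
          (mon_minor A v P Q s s') ((A.nv v).nonneg _) (mul_nonneg (hCM.nonneg v) (hCM.nonneg v))
      rw [← h4, map_mul, map_mul] at h6
      set z := A.nv v (E.x P i * E.x Q j - E.x P j * E.x Q i) with hz
      have hz0 : 0 ≤ z := (A.nv v).nonneg _
      have h7 : 1 ≤ (Ce v * A.nv v (Emb.eps E₀ E k P)) * (Ce v * A.nv v (Emb.eps E₀ E k Q)) :=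
        one_le_mul_of_one_le_of_one_le (he v P).2 (he v Q).2
      calc z ≤ ((Ce v * A.nv v (Emb.eps E₀ E k P)) * (Ce v * A.nv v (Emb.eps E₀ E k Q))) * z :=
            le_mul_of_one_le_left hz0 h7
        _ = Ce v * Ce v * (A.nv v (Emb.eps E₀ E k P) * A.nv v (Emb.eps E₀ E k Q) * z) := by ring
        _ ≤ _ := mul_le_mul_of_nonneg_left h6 (mul_nonneg (hCe.nonneg v) (hCe.nonneg v))
    refine h3.trans ?_
    have h8 : (E₀.nx A v P * E₀.nx A v Q) ^ k ≤
        (Ce v * (Cd v * Cp v)) ^ 2 * (E.nx A v P * E.nx A v Q) := by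
      rw [mul_pow]
      calc _ ≤ (Ce v * (Cd v * Cp v) * E.nx A v P) * (Ce v * (Cd v * Cp v) * E.nx A v Q) :=
            mul_le_mul (hnx' v P) (hnx' v Q) (pow_nonneg hnQ0.le _) (mul_nonneg
              (mul_nonneg (hCe.nonneg v) (mul_nonneg (hCd.nonneg v) (hCp.nonneg v))) hnP.le)
        _ = _ := by ring
    have hc : 0 ≤ Ce v * Ce v * (A.cst n v * (A.cst n v * (CM v * CM v * A.cst 2 v ^ k))) := by
      have := hCe.nonneg v
      have := hCM.nonneg v
      have := (A.mc_cst n).nonneg v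
      have := (A.mc_cst 2).nonneg v
      positivity
    calc Ce v * Ce v * (A.cst n v * (A.cst n v * (CM v * CM v * A.cst 2 v ^ k * W)))
        = (Ce v * Ce v * (A.cst n v * (A.cst n v * (CM v * CM v * A.cst 2 v ^ k)))) *
          E₀.dl A v P Q * (E₀.nx A v P * E₀.nx A v Q) ^ k := by rw [hW]; ring
      _ ≤ (Ce v * Ce v * (A.cst n v * (A.cst n v * (CM v * CM v * A.cst 2 v ^ k)))) *
          E₀.dl A v P Q * ((Ce v * (Cd v * Cp v)) ^ 2 * (E.nx A v P * E.nx A v Q)) :=
          mul_le_mul_of_nonneg_left h8 (mul_nonneg hc hd0)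
      _ = _ := by ring
  -- constants
  have m1 : MC (fun v => Ce v * (A.cst n v * CM v)) := hCe.mul ((A.mc_cst n).mul hCM)
  have m2 : MC (fun v => Ce v * (Cd v * Cp v)) := hCe.mul (hCd.mul hCp)
  have m3 : MC (fun v => (Ce v * Ce v * (A.cst n v * (A.cst n v * (CM v * CM v *
      A.cst 2 v ^ k)))) * (Ce v * (Cd v * Cp v)) ^ 2) :=
    ((hCe.mul hCe).mul ((A.mc_cst n).mul ((A.mc_cst n).mul ((hCM.mul hCM).mul
      ((A.mc_cst 2).pow k))))).mul (m2.pow 2)
  refine ⟨fun v => (Ce v * (A.cst n v * CM v)) * (Ce v * (Cd v * Cp v)) *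
    ((Ce v * Ce v * (A.cst n v * (A.cst n v * (CM v * CM v *
      A.cst 2 v ^ k)))) * (Ce v * (Cd v * Cp v)) ^ 2), (m1.mul m2).mul m3, fun v => ?_⟩
  have o1 := m1.one_le v
  have o2 := m2.one_le v
  have o3 := m3.one_le v
  set a1 := Ce v * (A.cst n v * CM v)
  set a2 := Ce v * (Cd v * Cp v)
  set a3 := (Ce v * Ce v * (A.cst n v * (A.cst n v * (CM v * CM v * A.cst 2 v ^ k)))) * a2 ^ 2
  have hA2 : a2 ≤ a1 * a2 * a3 := by
    have : a2 * 1 ≤ a2 * (a1 * a3) := mul_le_mul_of_nonneg_left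
      (one_le_mul_of_one_le_of_one_le o1 o3) (by linarith)
    linarith [this]
  have hA1 : a1 ≤ a1 * a2 * a3 := by
    have : a1 * 1 ≤ a1 * (a2 * a3) := mul_le_mul_of_nonneg_left
      (one_le_mul_of_one_le_of_one_le o2 o3) (by linarith)
    linarith [this]
  have hA3 : a3 ≤ a1 * a2 * a3 := by
    have : 1 * a3 ≤ (a1 * a2) * a3 := mul_le_mul_of_nonneg_right
      (one_le_mul_of_one_le_of_one_le o1 o2) (by linarith)
    linarith [this]
  refine ⟨fun P => ⟨(hnx' v P).trans (mul_le_mul_of_nonneg_right hA2 (Emb.nx_pos A v P).le),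
    (hnx v P).trans (mul_le_mul_of_nonneg_right hA1 (pow_nonneg (Emb.nx_pos A v P).le _))⟩,
    fun P Q => (hdl v P Q).trans (mul_le_mul_of_nonneg_right hA3 (Emb.dl_nonneg A v P Q))⟩

end Cmp

end Fermat.Agent.MWH
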