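import Fermat.Agent.MWH.Int
import Fermat.Agent.GoodRed.Rigid

/-!
# The lower bound with respect to a fixed pencil
-/

set_option autoImplicit false
set_option linter.unusedSectionVars false
set_option linter.style.haveILetI false

noncomputable section

namespace Fermat.Agent.MWH

open AlgebraicCurve Fermat.Agent.Curves Fermat.Agent.PicFlat Fermat.Agent.GoodRed Polynomial

variable {K F ι : Type*} [Field K] [IsAlgClosed K] [Field F] [Algebra K F] [IsFunctionField K F]

/-- a pencil of hyperplanes without base points on the curve -/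
structure Pencil (E : Emb K F) (w w' : Fin (E.r + 1) → K) : Prop where
  w0 : w ≠ 0
  w0' : w' ≠ 0
  bpf : ∀ P, E.dot w' P = 0 → E.dot w P ≠ 0

namespace Pencil

variable {E : Emb K F} {w w' : Fin (E.r + 1) → K} (h : Pencil E w w')

include h

theorem ord_t (P : Place K F) : P.ord (E.G w / E.G w') = E.dv w P - E.dv w' P :=
  Emb.ord_ratio h.w0 h.w0' P

theorem t_ne : E.G w / E.G w' ≠ 0 := div_ne_zero (E.G_ne_zero h.w0) (E.G_ne_zero h.w0')

theorem ord_t_neg {P : Place K F} (hP : E.dot w' P = 0) :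
    P.ord (E.G w / E.G w') = -E.dv w' P ∧ 0 < E.dv w' P := by
  rw [h.ord_t, Emb.dv_eq_zero (h.bpf P hP)]
  exact ⟨by ring, (Emb.dot_eq_zero_iff h.w0' P).1 hP⟩

theorem t_mem_iff (P : Place K F) :
    E.G w / E.G w' ∈ P.toValuationSubring ↔ E.dot w' P ≠ 0 := by
  constructor
  · intro hm h0
    rw [mem_iff_ord P h.t_ne] at hm
    have := h.ord_t_neg h0
    omega
  · exact Emb.ratio_mem w

theorem exists_pole : ∃ P, E.dot w' P = 0 := by
  by_contra hcon
  push Not at hcon
  have h1 : E.dv w' = 0 := Finsupp.ext fun P => by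
    rw [Emb.dv_eq_zero (hcon P)]
    rfl
  have h2 := Emb.dv_degree (E := E) w'
  rw [h1, map_zero] at h2
  have := E.pos
  omega

theorem transc : Transcendental K (E.G w / E.G w') := by
  obtain ⟨P, hP⟩ := h.exists_pole
  have h1 := h.ord_t_neg hP
  exact transcendental_of_ord_ne_zero (v := P) (by omega)

end Pencil

/-- the product `∏ (T - τ_Q)^{n_Q}` -/
def prodP {K α : Type*} [Field K] (s : Finset α) (τ : α → K) (n : α → ℕ) : K[X] :=
  ∏ a ∈ s, (X - C (τ a)) ^ n a

theorem prodP_monic {K α : Type*} [Field K] (s : Finset α) (τ : α → K) (n : α → ℕ) :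
    (prodP s τ n).Monic := monic_prod_of_monic _ _ fun _ _ => (monic_X_sub_C _).pow _

theorem prodP_natDegree {K α : Type*} [Field K] (s : Finset α) (τ : α → K) (n : α → ℕ) :
    (prodP s τ n).natDegree = ∑ a ∈ s, n a := by
  rw [prodP, natDegree_prod_of_monic _ _ fun _ _ => (monic_X_sub_C _).pow _]
  exact Finset.sum_congr rfl fun a _ => by
    rw [(monic_X_sub_C (τ a)).natDegree_pow, natDegree_X_sub_C, mul_one]

theorem prodP_eval {K α : Type*} [Field K] (s : Finset α) (τ : α → K) (n : α → ℕ) (x : K) :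
    (prodP s τ n).eval x = ∏ a ∈ s, (x - τ a) ^ n a := by
  rw [prodP, eval_prod]
  exact Finset.prod_congr rfl fun a _ => by simp

theorem prodP_aeval (s : Finset (Place K F)) (τ : Place K F → K) (n : Place K F → ℕ) (t : F) :
    aeval t (prodP s τ n) = ∏ a ∈ s, (t - algebraMap K F (τ a)) ^ n a := by
  rw [prodP, map_prod]
  exact Finset.prod_congr rfl fun a _ => by simp

theorem sum_toNat (D : Divisor K F) (hD : ∀ P, 0 ≤ D P) :
    ((∑ Q ∈ D.support, (D Q).toNat : ℕ) : ℤ) = Divisor.degree D := by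
  rw [degree_eq_sum, Finsupp.sum]
  push_cast
  exact Finset.sum_congr rfl fun Q _ => Int.toNat_of_nonneg (hD Q)

section Main

variable {E : Emb K F} {w w' : Fin (E.r + 1) → K} (h : Pencil E w w')

/-- the value of the parameter -/
def tau (E : Emb K F) (w w' : Fin (E.r + 1) → K) (P : Place K F) : K := E.dot w P / E.dot w' P

theorem value_t {P : Place K F} (hP : E.dot w' P ≠ 0) :
    value P (E.G w / E.G w') = tau E w w' P := Emb.value_ratio w hP

/-- the cofactor -/
def cof (E : Emb K F) (w w' c : Fin (E.r + 1) → K) : F :=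
  aeval (E.G w / E.G w') (prodP (E.dv c).support (tau E w w') fun Q => (E.dv c Q).toNat) *
    (E.G w' / E.G c)

include h in
theorem ord_sub_tau (P Q : Place K F) :
    P.ord (E.G w / E.G w' - algebraMap K F (tau E w w' Q)) =
      -E.dv w' P ∨ (E.dot w' P ≠ 0 ∧
      0 ≤ P.ord (E.G w / E.G w' - algebraMap K F (tau E w w' Q)) ∧
      (P = Q → 1 ≤ P.ord (E.G w / E.G w' - algebraMap K F (tau E w w' Q)))) := by
  by_cases hP : E.dot w' P = 0
  · left
    have h1 := h.ord_t_neg hP
    have h2 := ord_add_eq_left P h.t_ne (g := -algebraMap K F (tau E w w' Q))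
      (by
        by_cases h3 : tau E w w' Q = 0
        · left; rw [h3, map_zero, neg_zero]
        · right
          rw [ord_neg, ord_algebraMap]
          omega)
    rw [sub_eq_add_neg, h2.2, h1.1]
  · right
    have hm := (h.t_mem_iff P).2 hP
    refine ⟨hP, ord_sub_nonneg h.transc hm _, fun hPQ => ?_⟩
    have := (ord_sub_pos_iff h.transc hm (tau E w w' Q)).2 (by rw [value_t hP, hPQ])
    omega

include h in
theorem sub_tau_ne (Q : Place K F) : E.G w / E.G w' - algebraMap K F (tau E w w' Q) ≠ 0 :=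
  sub_algebraMap_ne_zero h.transc _

include h in
theorem cof_ne {c : Fin (E.r + 1) → K} (hc : c ≠ 0) : cof E w w' c ≠ 0 := by
  refine mul_ne_zero ?_ (div_ne_zero (E.G_ne_zero h.w0') (E.G_ne_zero hc))
  rw [prodP_aeval]
  exact Finset.prod_ne_zero_iff.2 fun Q _ => pow_ne_zero _ (sub_tau_ne h Q)

include h in
theorem cof_mem {c : Fin (E.r + 1) → K} (hc : c ≠ 0)
    (hQ : ∀ Q ∈ (E.dv c).support, E.dot w' Q ≠ 0) :
    cof E w w' c ∈ riemannRochSpace (((E.m : ℤ) - 1) • E.dv w') := by
  rw [mem_iff_of_ne (cof_ne h hc)]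
  intro P
  rw [Finsupp.smul_apply, smul_eq_mul, cof, prodP_aeval,
    P.ord_mul (Finset.prod_ne_zero_iff.2 fun Q _ => pow_ne_zero _ (sub_tau_ne h Q))
      (div_ne_zero (E.G_ne_zero h.w0') (E.G_ne_zero hc)), Emb.ord_ratio h.w0' hc,
    ord_prod P _ _ fun Q _ => pow_ne_zero _ (sub_tau_ne h Q)]
  simp only [ord_pow]
  have hnn := fun Q => Emb.dv_nonneg hc Q
  have hsum := sum_toNat (E.dv c) hnn
  rw [Emb.dv_degree] at hsum
  by_cases hP : E.dot w' P = 0
  · have h1 : ∀ Q ∈ (E.dv c).support, ((E.dv c Q).toNat : ℤ) *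
        P.ord (E.G w / E.G w' - algebraMap K F (tau E w w' Q)) =
        ((E.dv c Q).toNat : ℤ) * -E.dv w' P := fun Q _ => by
      rcases ord_sub_tau h P Q with h2 | h2
      · rw [h2]
      · exact absurd hP h2.1
    rw [Finset.sum_congr rfl h1, ← Finset.sum_mul, ← Nat.cast_sum, hsum]
    have h2 : E.dv c P = 0 := by
      by_contra h3
      exact hQ P (Finsupp.mem_support_iff.2 h3) hP
    rw [h2]
    linarith
  · rw [Emb.dv_eq_zero hP]
    have h1 : ∀ Q ∈ (E.dv c).support, 0 ≤ ((E.dv c Q).toNat : ℤ) *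
        P.ord (E.G w / E.G w' - algebraMap K F (tau E w w' Q)) := fun Q _ => by
      rcases ord_sub_tau h P Q with h2 | h2
      · rw [Emb.dv_eq_zero hP] at h2
        rw [h2]
        simp
      · exact mul_nonneg (by positivity) h2.2.1
    by_cases hPs : P ∈ (E.dv c).support
    · have h2 := Finset.single_le_sum h1 hPs
      have h3 : E.dv c P ≤ ((E.dv c P).toNat : ℤ) *
          P.ord (E.G w / E.G w' - algebraMap K F (tau E w w' P)) := by
        rcases ord_sub_tau h P P with h4 | h4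
        · exfalso
          have h5 := (ord_sub_pos_iff h.transc ((h.t_mem_iff P).2 hP) (tau E w w' P)).2
            (value_t hP)
          rw [h4, Emb.dv_eq_zero hP] at h5
          omega
        · have h5 := h4.2.2 rfl
          have h6 : ((E.dv c P).toNat : ℤ) = E.dv c P := Int.toNat_of_nonneg (hnn P)
          rw [h6]
          nlinarith [hnn P]
      linarith
    · have h2 := Finset.sum_nonneg h1
      rw [Finsupp.notMem_support_iff.1 hPs]
      linarith

/-- **lower bound with respect to a pencil** -/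
theorem Pencil.lb (A : AVFam K ι) (h : Pencil E w w') {B : ι → ℝ} (hB : MC B) :
    ∃ D, MC D ∧ ∀ v (c : Fin (E.r + 1) → K), c ≠ 0 → ∀ P,
      (E.dot w' P ≠ 0 ∧ A.nv v (tau E w w' P) ≤ B v) →
      (∀ Q ∈ (E.dv c).support, E.dot w' Q ≠ 0 ∧ A.nv v (tau E w w' Q) ≤ B v) →
      sup A v c * A.nv v (E.dot w' P) *
        ∏ Q ∈ (E.dv c).support, A.nv v (tau E w w' P - tau E w w' Q) ^ (E.dv c Q).toNat ≤
      D v * A.nv v (E.dot c P) := by
  classical
  set t := E.G w / E.G w' with ht
  have hG' := E.G_ne_zero h.w0'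
  -- bases
  let Y : Submodule K F := riemannRochSpace (((E.m : ℤ) - 1) • E.dv w')
  let Z : Submodule K F := riemannRochSpace ((E.m : ℤ) • E.dv w')
  haveI : FiniteDimensional K Y := finiteDimensional_riemannRochSpace _
  haveI : FiniteDimensional K Z := finiteDimensional_riemannRochSpace _
  let by_ := Module.finBasis K Y
  let bz := Module.finBasis K Z
  have hw'nn := fun Q => Emb.dv_nonneg h.w0' Q
  have hm := E.pos
  have h1Y : (1 : F) ∈ Y := by
    rw [show Y = riemannRochSpace (((E.m : ℤ) - 1) • E.dv w') from rfl,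
      mem_iff_of_ne one_ne_zero]
    intro P
    rw [Finsupp.smul_apply, smul_eq_mul, P.ord_one, zero_add]
    exact mul_nonneg (by omega) (hw'nn P)
  haveI : Nontrivial Y := ⟨⟨⟨1, h1Y⟩, 0, fun h0 => one_ne_zero (congrArg Subtype.val h0)⟩⟩
  haveI hne : Nonempty (Fin (Module.finrank K Y)) :=
    ⟨⟨0, Module.finrank_pos⟩⟩
  let hh : Fin (E.r + 1) → F := fun i => E.f i / E.G w'
  have hhli : LinearIndependent K hh := by
    rw [Fintype.linearIndependent_iff]
    intro g hg i
    have h2 : (∑ i, g i • E.f i) / E.G w' = 0 := by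
      rw [← hg, Finset.sum_div]
      exact Finset.sum_congr rfl fun i _ => by simp only [hh]; rw [smul_div_assoc]
    have h3 := (div_eq_zero_iff.1 h2).resolve_right hG'
    exact (Fintype.linearIndependent_iff.1 E.li) g h3 i
  let yy : Fin (Module.finrank K Y) → F := fun j => (by_ j : F)
  have yyli : LinearIndependent K yy :=
    by_.linearIndependent.map' Y.subtype (Submodule.ker_subtype Y)
  let zz : Fin (Module.finrank K Z) → F := fun l => (bz l : F)
  have zzli : LinearIndependent K zz :=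
    bz.linearIndependent.map' Z.subtype (Submodule.ker_subtype Z)
  have hprod : ∀ i j, hh i * yy j ∈ Z := fun i j => by
    rcases eq_or_ne (yy j) 0 with h0 | h0
    · rw [h0, mul_zero]; exact Z.zero_mem
    have hf0 : E.f i ≠ 0 := E.li.ne_zero i
    have hhi : hh i ≠ 0 := div_ne_zero hf0 hG'
    change hh i * yy j ∈ riemannRochSpace ((E.m : ℤ) • E.dv w')
    rw [mem_iff_of_ne (mul_ne_zero hhi h0)]
    intro P
    have h2 := (mem_iff_of_ne h0).1 (by_ j).2 P
    rw [Finsupp.smul_apply, smul_eq_mul] at h2 ⊢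
    have h3 := (mem_iff_of_ne hf0).1 (E.f_mem i) P
    have h4 := Emb.dv_apply (E := E) w' P
    rw [P.ord_mul hhi h0, ord_div P hf0 hG']
    change 0 ≤ P.ord (yy j) + _ at h2
    nlinarith
  let s : Fin (E.r + 1) → Fin (Module.finrank K Y) → Fin (Module.finrank K Z) → K :=
    fun i j l => bz.repr ⟨hh i * yy j, hprod i j⟩ l
  have hexp : ∀ (x : F) (hx : x ∈ Z), x = ∑ l, bz.repr ⟨x, hx⟩ l • zz l := fun x hx => by
    have := congrArg Subtype.val (bz.sum_repr ⟨x, hx⟩)
    simp only [Submodule.coe_sum, Submodule.coe_smul] at this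
    exact this.symm
  have hs : ∀ i j, hh i * yy j = ∑ l, s i j l • zz l := fun i j => hexp _ _
  obtain ⟨C₁, hC₁, hmul⟩ := AVFam.mul_lower A hh hhli yy yyli zz s hs
  -- powers of t
  have htpow : ∀ i : Fin (E.m + 1), t ^ (i : ℕ) ∈ Z := fun i => by
    change _ ∈ riemannRochSpace ((E.m : ℤ) • E.dv w')
    rw [mem_iff_of_ne (pow_ne_zero _ h.t_ne)]
    intro P
    rw [Finsupp.smul_apply, smul_eq_mul, ord_pow, h.ord_t]
    have h2 := Emb.dv_nonneg h.w0 P
    have h3 := hw'nn P
    have h4 : ((i : ℕ) : ℤ) ≤ E.m := by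
      have := i.2
      omega
    nlinarith [Int.natCast_nonneg (i : ℕ)]
  have hlin : ∀ l ∈ (Finset.univ : Finset (Fin (Module.finrank K Z))), ∃ C, MC C ∧ ∀ v
      (y : (Fin (E.m + 1) → K) × ℝ), 0 ≤ y.2 → (∀ a, A.nv v (y.1 a) ≤ y.2) →
      A.nv v (∑ a : Fin (E.m + 1), bz.repr ⟨t ^ (a : ℕ), htpow a⟩ l * y.1 a) ≤ C v * y.2 := fun l _ => by
    obtain ⟨C, hC, hC'⟩ := A.exists_lin (fun a : Fin (E.m + 1) => bz.repr ⟨t ^ (a : ℕ), htpow a⟩ l)
    exact ⟨C, hC, fun v y hy hy' => hC' v y.1 y.2 hy hy'⟩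
  obtain ⟨C₂, hC₂, hlin'⟩ := exists_mc_finset (ι := ι) Finset.univ
    (fun l v (y : (Fin (E.m + 1) → K) × ℝ) C => 0 ≤ y.2 → (∀ a, A.nv v (y.1 a) ≤ y.2) →
      A.nv v (∑ a : Fin (E.m + 1), bz.repr ⟨t ^ (a : ℕ), htpow a⟩ l * y.1 a) ≤ C * y.2)
    (fun l v y C C' hCC hy h0 h1 => (hy h0 h1).trans (mul_le_mul_of_nonneg_right hCC h0)) hlin
  -- values of yy
  have hyaff : ∀ j, yy j ∈ affineRing K t := fun j => by
    intro P hP
    rw [h.t_mem_iff] at hP
    rcases eq_or_ne (yy j) 0 with h0 | h0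
    · rw [h0]; exact zero_mem _
    rw [mem_iff_ord P h0]
    have h2 := (mem_iff_of_ne h0).1 (by_ j).2 P
    rw [Finsupp.smul_apply, smul_eq_mul, Emb.dv_eq_zero hP, mul_zero, add_zero] at h2
    exact h2
  have hyb : ∀ j ∈ (Finset.univ : Finset (Fin (Module.finrank K Y))), ∃ C, MC C ∧ ∀ v
      (P : Place K F), t ∈ P.toValuationSubring → A.nv v (value P t) ≤ B v →
      A.nv v (value P (yy j)) ≤ C v := fun j _ => A.exists_int (hyaff j) hB
  obtain ⟨C₃, hC₃, hyb'⟩ := exists_mc_finset (ι := ι) Finset.univ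
    (fun j v (P : Place K F) C => t ∈ P.toValuationSubring → A.nv v (value P t) ≤ B v →
      A.nv v (value P (yy j)) ≤ C)
    (fun j v P C C' hCC hy h0 h1 => (hy h0 h1).trans hCC) hyb
  refine ⟨fun v => A.cst (Module.finrank K Y) v * C₃ v * (C₁ v * (C₂ v *
    (A.cst 2 v * B v) ^ E.m)), ((A.mc_cst _).mul hC₃).mul (hC₁.mul (hC₂.mul
      (((A.mc_cst 2).mul hB).pow _))), fun v c hc P hP hQ => ?_⟩
  -- the cofactor
  have hQ0 : ∀ Q ∈ (E.dv c).support, E.dot w' Q ≠ 0 := fun Q hQs => (hQ Q hQs).1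
  have hcofm := cof_mem h hc hQ0
  set q : K[X] := prodP (E.dv c).support (tau E w w') fun Q => (E.dv c Q).toNat with hq
  have hdeg : q.natDegree = E.m := by
    rw [hq, prodP_natDegree]
    have h2 := sum_toNat (E.dv c) (fun Q => Emb.dv_nonneg hc Q)
    rw [Emb.dv_degree] at h2
    exact_mod_cast h2
  set y : F := cof E w w' c with hy
  let d : Fin (Module.finrank K Y) → K := fun j => by_.repr ⟨y, hcofm⟩ j
  have hyexp : y = ∑ j, d j • yy j := by
    have := congrArg Subtype.val (by_.sum_repr ⟨y, hcofm⟩)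
    simp only [Submodule.coe_sum, Submodule.coe_smul] at this
    exact this.symm
  have hGc := E.G_ne_zero hc
  have hprodeq : (E.G c / E.G w') * y = aeval t q := by
    rw [hy, cof]
    field_simp
    rfl
  -- coordinates
  have hGcexp : E.G c / E.G w' = ∑ i, c i • hh i := by
    rw [Emb.G, Finset.sum_div]
    exact Finset.sum_congr rfl fun i _ => by simp only [hh]; rw [smul_div_assoc]
  have hco : ∀ l, ∑ i, ∑ j, c i * d j * s i j l =
      ∑ a : Fin (E.m + 1), bz.repr ⟨t ^ (a : ℕ), htpow a⟩ l * q.coeff a := by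
    have h2 : ∑ l, (∑ i, ∑ j, c i * d j * s i j l) • zz l =
        ∑ l, (∑ a : Fin (E.m + 1), bz.repr ⟨t ^ (a : ℕ), htpow a⟩ l * q.coeff a) • zz l := by
      have h3 : ∑ l, (∑ i, ∑ j, c i * d j * s i j l) • zz l = (E.G c / E.G w') * y := by
        rw [hGcexp, hyexp, Finset.sum_mul_sum]
        have : ∀ i j, c i • hh i * d j • yy j =
          ∑ l, (c i * d j * s i j l) • zz l := fun i j => by
          rw [smul_mul_smul_comm, hs, Finset.smul_sum]
          exact Finset.sum_congr rfl fun l _ => by rw [smul_smul]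
        simp only [this]
        rw [Finset.sum_congr rfl fun i _ => Finset.sum_comm, Finset.sum_comm]
        refine Finset.sum_congr rfl fun l _ => ?_
        simp only [Finset.sum_smul]
      have h4 : ∑ l, (∑ a : Fin (E.m + 1), bz.repr ⟨t ^ (a : ℕ), htpow a⟩ l * q.coeff a) • zz l =
          aeval t q := by
        rw [aeval_eq_sum_range, hdeg, Finset.sum_range (fun i => q.coeff i • t ^ i)]
        simp only [Finset.sum_smul]
        rw [Finset.sum_comm]
        refine Finset.sum_congr rfl fun a _ => ?_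
        conv_rhs => rw [hexp _ (htpow a), Finset.smul_sum]
        exact Finset.sum_congr rfl fun l _ => by rw [smul_smul, mul_comm]
      rw [h3, h4, hprodeq]
    have h5 : ∑ l, ((∑ i, ∑ j, c i * d j * s i j l) -
        (∑ a : Fin (E.m + 1), bz.repr ⟨t ^ (a : ℕ), htpow a⟩ l * q.coeff a)) • zz l = 0 := by
      simp only [sub_smul, Finset.sum_sub_distrib]
      rw [h2, sub_self]
    intro l
    exact sub_eq_zero.1 ((Fintype.linearIndependent_iff.1 zzli) _ h5 l)
  -- size of the coefficients of q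
  have hqc : ∀ a, A.nv v (q.coeff a) ≤ (A.cst 2 v * B v) ^ E.m := fun a => by
    have h2 := A.coeff_prod_le (hB.one_le v) (E.dv c).support (tau E w w')
      (fun Q => (E.dv c Q).toNat) (fun Q hQs => (hQ Q hQs).2) a
    have h3 : ∑ Q ∈ (E.dv c).support, (E.dv c Q).toNat = E.m := by
      rw [← hdeg, hq, prodP_natDegree]
    rw [h3] at h2
    exact h2
  have hR0 : 0 ≤ (A.cst 2 v * B v) ^ E.m := pow_nonneg (mul_nonneg ((A.mc_cst 2).nonneg v)
    (hB.nonneg v)) _
  -- the bound for d
  have hd : sup A v c * A.nrm v d ≤ C₁ v * (C₂ v * (A.cst 2 v * B v) ^ E.m) := by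
    refine (hmul v c d).trans (mul_le_mul_of_nonneg_left ?_ (hC₁.nonneg v))
    haveI : Nonempty (Fin (Module.finrank K Z)) := by
      have h1Z : (1 : F) ∈ Z := by simpa using htpow 0
      haveI : Nontrivial Z := ⟨⟨⟨1, h1Z⟩, 0, fun h0 => one_ne_zero (congrArg Subtype.val h0)⟩⟩
      exact ⟨⟨0, Module.finrank_pos⟩⟩
    refine AVFam.nrm_le fun l => ?_
    rw [hco l]
    exact hlin' v l (Finset.mem_univ l) ((fun a => q.coeff a), _) hR0 fun a => hqc a
  -- the value of y at P
  have htm : t ∈ P.toValuationSubring := (h.t_mem_iff P).2 hP.1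
  have hvt : value P t = tau E w w' P := value_t hP.1
  have hym : ∀ j, yy j ∈ P.toValuationSubring := fun j => hyaff j P htm
  have hyv : A.nv v (value P y) ≤ A.cst (Module.finrank K Y) v * (C₃ v * A.nrm v d) := by
    rw [hyexp, Emb.value_sum _ _ fun j _ => ?_]
    · have h2 := A.sum_le' (fun j => value P (d j • yy j)) v (M := C₃ v * A.nrm v d)
        (mul_nonneg (hC₃.nonneg v) (AVFam.nrm_nonneg v d)) fun j => ?_
      · rwa [Fintype.card_fin] at h2
      rw [Emb.value_smul P _ (hym j), map_mul, mul_comm]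
      exact mul_le_mul (hyb' v j (Finset.mem_univ j) P htm (hvt ▸ hP.2)) (AVFam.le_nrm v d j)
        ((A.nv v).nonneg _) (hC₃.nonneg v)
    · rw [Algebra.smul_def]
      exact mul_mem (P.algebraMap_mem' _) (hym j)
  have hymem : y ∈ P.toValuationSubring := by
    rw [hyexp]
    exact sum_mem fun j _ => by
      rw [Algebra.smul_def]
      exact mul_mem (P.algebraMap_mem' _) (hym j)
  have hval : (E.dot c P / E.dot w' P) * value P y = q.eval (tau E w w' P) := by
    rw [← Emb.value_ratio c hP.1, ← value_mul P (Emb.ratio_mem c hP.1) hymem, hprodeq,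
      value_aeval P htm, hvt]
  have hval' : A.nv v (E.dot c P) * A.nv v (value P y) = A.nv v (E.dot w' P) *
      ∏ Q ∈ (E.dv c).support, A.nv v (tau E w w' P - tau E w w' Q) ^ (E.dv c Q).toNat := by
    have h2 := congrArg (A.nv v) hval
    rw [hq, prodP_eval, map_prod, map_mul, map_div₀] at h2
    simp only [map_pow] at h2
    rw [← h2]
    have h3 : A.nv v (E.dot w' P) ≠ 0 := (A.nv v).ne_zero hP.1
    field_simp
  rw [mul_assoc, ← hval']
  calc sup A v c * (A.nv v (E.dot c P) * A.nv v (value P y))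
      ≤ sup A v c * (A.nv v (E.dot c P) *
        (A.cst (Module.finrank K Y) v * (C₃ v * A.nrm v d))) := by
        refine mul_le_mul_of_nonneg_left ?_ (AVFam.nrm_nonneg v c)
        exact mul_le_mul_of_nonneg_left hyv ((A.nv v).nonneg _)
    _ = A.cst (Module.finrank K Y) v * C₃ v * (sup A v c * A.nrm v d) *
        A.nv v (E.dot c P) := by ring
    _ ≤ _ := by
        refine mul_le_mul_of_nonneg_right ?_ ((A.nv v).nonneg _)
        exact mul_le_mul_of_nonneg_left hd (mul_nonneg ((A.mc_cst _).nonneg v) (hC₃.nonneg v))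

end Main

end Fermat.Agent.MWH
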