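import Fermat.Agent.MWH.Val

/-!
# `L(k m₀ ∞)` is spanned by the `k`-fold products of the sections of `L(m₀ ∞)`
-/

set_option autoImplicit false
set_option linter.unusedSectionVars false
set_option linter.style.haveILetI false

noncomputable section

namespace Fermat.Agent.MWH

open AlgebraicCurve Fermat.Agent.Curves Fermat.Agent.PicFlat

variable {K F ι : Type*} [Field K] [IsAlgClosed K] [Field F] [Algebra K F] [IsFunctionField K F]

/-- `L(n∞)` -/
def Ln (K : Type*) {F : Type*} [Field K] [IsAlgClosed K] [Field F] [Algebra K F]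
    [IsFunctionField K F] (Q : Place K F) (n : ℤ) : Submodule K F :=
  riemannRochSpace (Finsupp.single Q n)

theorem mem_Ln {Q : Place K F} {n : ℤ} {g : F} (hg : g ≠ 0) : g ∈ Ln K Q n ↔
    -n ≤ Q.ord g ∧ ∀ P, P ≠ Q → 0 ≤ P.ord g := by
  rw [Ln, mem_iff_of_ne hg]
  constructor
  · intro h
    refine ⟨?_, fun P hP => ?_⟩
    · have := h Q
      rw [Finsupp.single_eq_same] at this
      omega
    · have := h P
      rw [Finsupp.single_eq_of_ne hP] at this
      omega
  · rintro ⟨h1, h2⟩ P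
    by_cases hP : P = Q
    · subst hP
      rw [Finsupp.single_eq_same]
      omega
    · rw [Finsupp.single_eq_of_ne hP]
      have := h2 P hP
      omega

theorem Ln_mono {Q : Place K F} {n n' : ℤ} (h : n ≤ n') : Ln K Q n ≤ Ln K Q n' := by
  intro g hg
  rcases eq_or_ne g 0 with rfl | hg0
  · exact Submodule.zero_mem _
  rw [mem_Ln hg0] at hg ⊢
  exact ⟨by omega, hg.2⟩

theorem one_mem_Ln {Q : Place K F} {n : ℤ} (h : 0 ≤ n) : (1 : F) ∈ Ln K Q n := by
  rw [mem_Ln one_ne_zero]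
  exact ⟨by rw [Q.ord_one]; omega, fun P _ => by rw [P.ord_one]⟩

/-- two functions with the same pole order: the difference with a suitable multiple has a smaller
pole -/
theorem exists_sub {Q : Place K F} {n : ℤ} {g h : F} (hg : g ≠ 0) (hh : h ≠ 0)
    (hg1 : g ∈ Ln K Q n) (hh1 : h ∈ Ln K Q n) (hh2 : Q.ord h = -n) :
    ∃ l : K, g - l • h ∈ Ln K Q (n - 1) := by
  have hreg : g / h ∈ Q.toValuationSubring := by
    rw [mem_iff_ord Q (div_ne_zero hg hh), ord_div Q hg hh, hh2]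
    have := ((mem_Ln hg).1 hg1).1
    omega
  refine ⟨value Q (g / h), ?_⟩
  set l := value Q (g / h) with hl
  have h1 := value_spec Q hreg
  rw [val_lt_one_iff] at h1
  have h2 : g - l • h = (g / h - algebraMap K F l) * h := by
    rw [Algebra.smul_def]
    field_simp
  rcases eq_or_ne (g - l • h) 0 with h3 | h3
  · rw [h3]; exact Submodule.zero_mem _
  rw [mem_Ln h3]
  have h4 : g / h - algebraMap K F l ≠ 0 := fun h0 => h3 (by rw [h2, h0, zero_mul])
  refine ⟨?_, fun P hP => ?_⟩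
  · rw [h2, Q.ord_mul h4 hh, hh2]
    have h6 : 0 < Q.ord (g / h - algebraMap K F l) := h1.resolve_left h4
    omega
  · have h5 : g - l • h ∈ Ln K Q n := Submodule.sub_mem _ hg1 (Submodule.smul_mem _ _ hh1)
    exact ((mem_Ln h3).1 h5).2 P hP

/-- attained pole orders -/
theorem exists_pole_order {g c : ℤ} (rr : RR K F g c) (Q : Place K F) {n : ℤ} (hn : c + 1 ≤ n) :
    ∃ h ∈ Ln K Q n, h ≠ 0 ∧ Q.ord h = -n := by
  obtain ⟨f, hf, hf0, hf1⟩ := rr.bpf (D := Finsupp.single Q n)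
    (by rw [degree_single_one]; exact hn) Q
  rw [Finsupp.single_eq_same] at hf1
  exact ⟨f, hf, hf0, hf1⟩

theorem Ln_neg {Q : Place K F} {n : ℤ} (hn : n < 0) : Ln K Q n = ⊥ := by
  rw [eq_bot_iff]
  intro g hg
  by_contra hg0
  have hg0 : g ≠ 0 := hg0
  have h1 := (mem_iff_of_ne hg0).1 hg
  have h2 : 0 ≤ Divisor.degree (divisorOf g + Finsupp.single Q n : Divisor K F) :=
    pos_of_nonneg_degree _ fun P => by
      rw [Finsupp.add_apply, divisorOf_apply]
      exact h1 P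
  rw [map_add, degree_divisorOf, degree_single_one] at h2
  omega

theorem Ln_zero_le {Q : Place K F} : Ln K Q 0 ≤ Submodule.span K {(1 : F)} := by
  intro g hg
  rcases eq_or_ne g 0 with rfl | hg0
  · exact Submodule.zero_mem _
  have h1 : g ∈ Q.toValuationSubring := by
    rw [mem_iff_ord Q hg0]
    have := ((mem_Ln hg0).1 hg).1
    omega
  obtain ⟨l, hl⟩ := exists_sub (Q := Q) (n := 0) hg0 one_ne_zero hg (one_mem_Ln le_rfl)
    (by rw [Q.ord_one]; rfl)
  rw [Ln_neg (by norm_num), Submodule.mem_bot, sub_eq_zero] at hl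
  rw [hl]
  exact Submodule.smul_mem _ _ (Submodule.mem_span_singleton_self _)

theorem Ln_mul {Q : Place K F} {a b : ℤ} {g h : F} (hg : g ∈ Ln K Q a) (hh : h ∈ Ln K Q b) :
    g * h ∈ Ln K Q (a + b) := by
  rcases eq_or_ne g 0 with rfl | hg0
  · rw [zero_mul]; exact Submodule.zero_mem _
  rcases eq_or_ne h 0 with rfl | hh0
  · rw [mul_zero]; exact Submodule.zero_mem _
  rw [mem_Ln (mul_ne_zero hg0 hh0)]
  rw [mem_Ln hg0] at hg
  rw [mem_Ln hh0] at hh
  refine ⟨?_, fun P hP => ?_⟩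
  · rw [Q.ord_mul hg0 hh0]; omega
  · rw [P.ord_mul hg0 hh0]
    have := hg.2 P hP
    have := hh.2 P hP
    omega

theorem Ln_succ_le {g c : ℤ} (rr : RR K F g c) (Q : Place K F) {m : ℤ} (hm0 : 1 ≤ m)
    (hm : 2 * c + 2 ≤ m) (k : ℕ) (hk : 1 ≤ k) :
    Ln K Q ((k + 1 : ℕ) * m) ≤ Ln K Q m * Ln K Q (k * m) := by
  have hkm : m ≤ (k : ℤ) * m := by
    have : (1 : ℤ) ≤ k := by exact_mod_cast hk
    nlinarith
  have key : ∀ n : ℕ, (n : ℤ) ≤ (k + 1 : ℕ) * m → Ln K Q n ≤ Ln K Q m * Ln K Q (k * m) := by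
    intro n
    induction n with
    | zero =>
      intro _
      refine (Ln_zero_le).trans ?_
      rw [Submodule.span_singleton_le_iff_mem]
      have := Submodule.mul_mem_mul (M := Ln K Q m) (N := Ln K Q (k * m)) (one_mem_Ln (by omega))
        (one_mem_Ln (by omega))
      rwa [one_mul] at this
    | succ n ih =>
      intro hn
      by_cases hle : ((n + 1 : ℕ) : ℤ) ≤ k * m
      · intro x hx
        have := Submodule.mul_mem_mul (M := Ln K Q m) (N := Ln K Q (k * m))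
          (one_mem_Ln (by omega)) (Ln_mono hle hx)
        rwa [one_mul] at this
      push Not at hle
      -- split n + 1 = i + j
      obtain ⟨i, j, hij, hi1, hi2, hj1, hj2⟩ : ∃ i j : ℤ, ((n + 1 : ℕ) : ℤ) = i + j ∧
          c + 1 ≤ i ∧ i ≤ m ∧ c + 1 ≤ j ∧ j ≤ k * m := by
        by_cases hcase : c + 1 ≤ ((n + 1 : ℕ) : ℤ) - m
        · refine ⟨m, ((n + 1 : ℕ) : ℤ) - m, by ring, by omega, le_rfl, hcase, ?_⟩
          have h3 : ((k + 1 : ℕ) : ℤ) * m = k * m + m := by push_cast; ring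
          rw [h3] at hn
          omega
        · refine ⟨((n + 1 : ℕ) : ℤ) - (c + 1), c + 1, by ring, by omega, by omega, le_rfl,
            by omega⟩
      obtain ⟨h₁, hh₁, hh₁0, hh₁o⟩ := exists_pole_order rr Q hi1
      obtain ⟨h₂, hh₂, hh₂0, hh₂o⟩ := exists_pole_order rr Q hj1
      have hprod : h₁ * h₂ ∈ Ln K Q m * Ln K Q (k * m) :=
        Submodule.mul_mem_mul (Ln_mono hi2 hh₁) (Ln_mono hj2 hh₂)
      intro x hx
      rcases eq_or_ne x 0 with rfl | hx0
      · exact Submodule.zero_mem _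
      obtain ⟨l, hl⟩ := exists_sub (Q := Q) (n := ((n + 1 : ℕ) : ℤ)) hx0 (mul_ne_zero hh₁0 hh₂0) hx
        (by rw [hij]; exact Ln_mul hh₁ hh₂) (by rw [Q.ord_mul hh₁0 hh₂0, hh₁o, hh₂o, hij]; ring)
      have h4 : x - l • (h₁ * h₂) ∈ Ln K Q m * Ln K Q (k * m) :=
        ih (by omega) (Ln_mono (by omega) hl)
      have h5 := Submodule.add_mem _ h4 (Submodule.smul_mem _ l hprod)
      rwa [sub_add_cancel] at h5
  have h0 : 0 ≤ ((k + 1 : ℕ) : ℤ) * m := by positivity
  have := key (((k + 1 : ℕ) : ℤ) * m).toNat (by rw [Int.toNat_of_nonneg h0])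
  rwa [Int.toNat_of_nonneg h0] at this

theorem Ln_pow {g c : ℤ} (rr : RR K F g c) (Q : Place K F) {m : ℤ} (hm0 : 1 ≤ m)
    (hm : 2 * c + 2 ≤ m) (k : ℕ) (hk : 1 ≤ k) : Ln K Q (k * m) ≤ Ln K Q m ^ k := by
  induction k, hk using Nat.le_induction with
  | base => simp
  | succ k hk ih =>
    refine (Ln_succ_le rr Q hm0 hm k hk).trans ?_
    rw [pow_succ']
    exact mul_le_mul' le_rfl ih

/-- the products -/
def Emb.pf (E : Emb K F) {k : ℕ} (s : Fin k → Fin (E.r + 1)) : F := ∏ j, E.f (s j)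

theorem Emb.pf_mem (E : Emb K F) {k : ℕ} (s : Fin k → Fin (E.r + 1)) :
    E.pf s ∈ Ln K E.inf (k * (E.m : ℤ)) := by
  induction k with
  | zero =>
    simp only [Emb.pf, Finset.univ_eq_empty, Finset.prod_empty]
    exact one_mem_Ln (by simp)
  | succ k ih =>
    have h1 : E.pf s = E.f (s 0) * E.pf (fun j => s j.succ) := Fin.prod_univ_succ _
    rw [h1]
    have := Ln_mul (E.f_mem (s 0)) (ih (fun j => s j.succ))
    refine Ln_mono (le_of_eq ?_) this
    push_cast
    ring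

theorem Emb.span_pf (E : Emb K F) (h2 : 2 * E.c + 2 ≤ E.m) {k : ℕ} (hk : 1 ≤ k) :
    Ln K E.inf (k * (E.m : ℤ)) ≤ Submodule.span K (Set.range fun s : Fin k → Fin (E.r + 1) =>
      E.pf s) := by
  refine (Ln_pow E.rr E.inf (by exact_mod_cast E.pos) h2 k hk).trans ?_
  rw [show Ln K E.inf (E.m : ℤ) = Submodule.span K (Set.range E.f) from E.span.symm,
    Submodule.span_pow]
  refine Submodule.span_mono ?_
  intro x hx
  rw [Set.mem_pow] at hx
  obtain ⟨f, hf⟩ := hx
  choose s hs using fun j => (f j).2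
  refine ⟨s, ?_⟩
  rw [← hf, List.prod_ofFn]
  exact Finset.prod_congr rfl fun j _ => hs j

end Fermat.Agent.MWH
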